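import Mathlib

set_option autoImplicit false
set_option linter.unusedSimpArgs false
set_option linter.unnecessarySimpa false
set_option linter.unusedSectionVars false

open CategoryTheory

namespace Fermat.Agent.S55.EW55

/-- A contravariant `k`-linear functor from `Rep k Γ` to `k`-vector spaces, in unbundled form. -/
structure DualFun (k : Type) [Field k] (Γ : Type) [Group Γ] where
  obj : Rep.{0} k Γ → Type
  [acg : ∀ A, AddCommGroup (obj A)]
  [mod : ∀ A, Module k (obj A)]
  map : ∀ {A B : Rep.{0} k Γ}, (A ⟶ B) → (obj B →ₗ[k] obj A)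
  map_id : ∀ A : Rep.{0} k Γ, map (𝟙 A) = LinearMap.id
  map_comp : ∀ {A B C : Rep.{0} k Γ} (f : A ⟶ B) (g : B ⟶ C), map (f ≫ g) = (map f) ∘ₗ (map g)
  map_add : ∀ {A B : Rep.{0} k Γ} (f g : A ⟶ B), map (f + g) = map f + map g
  map_smul : ∀ {A B : Rep.{0} k Γ} (c : k) (f : A ⟶ B), map (c • f) = c • map f

attribute [instance] DualFun.acg DualFun.mod

variable {k : Type} [Field k] {Γ : Type} [Group Γ]

namespace DualFun

variable (T : DualFun k Γ)

lemma map_zero {A B : Rep.{0} k Γ} : T.map (0 : A ⟶ B) = 0 := by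
  have := T.map_smul (0 : k) (0 : A ⟶ B)
  simpa using this

lemma map_sum {A B : Rep.{0} k Γ} {ι : Type*} (s : Finset ι) (f : ι → (A ⟶ B)) :
    T.map (∑ i ∈ s, f i) = ∑ i ∈ s, T.map (f i) := by
  classical
  induction s using Finset.induction_on with
  | empty => simp [map_zero]
  | insert a s ha ih => rw [Finset.sum_insert ha, Finset.sum_insert ha, T.map_add, ih]

lemma map_comp_apply {A B C : Rep.{0} k Γ} (f : A ⟶ B) (g : B ⟶ C) (t : T.obj C) :
    T.map (f ≫ g) t = T.map f (T.map g t) := by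
  rw [T.map_comp]; rfl

lemma map_add_apply {A B : Rep.{0} k Γ} (f g : A ⟶ B) (t : T.obj B) :
    T.map (f + g) t = T.map f t + T.map g t := by
  rw [T.map_add]; rfl

lemma map_smul_apply {A B : Rep.{0} k Γ} (c : k) (f : A ⟶ B) (t : T.obj B) :
    T.map (c • f) t = c • T.map f t := by
  rw [T.map_smul]; rfl

lemma map_zero_apply {A B : Rep.{0} k Γ} (t : T.obj B) :
    T.map (0 : A ⟶ B) t = 0 := by
  rw [T.map_zero]; rfl

lemma map_id_apply {A : Rep.{0} k Γ} (t : T.obj A) : T.map (𝟙 A) t = t := by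
  rw [T.map_id]; rfl

lemma map_sum_apply {A B : Rep.{0} k Γ} {ι : Type*} (s : Finset ι) (f : ι → (A ⟶ B))
    (t : T.obj B) : T.map (∑ i ∈ s, f i) t = ∑ i ∈ s, T.map (f i) t := by
  rw [T.map_sum, LinearMap.sum_apply]

/-- Left exactness on finite-dimensional representations. -/
structure LeftExact : Prop where
  inj : ∀ {A B : Rep.{0} k Γ} [Module.Finite k A] [Module.Finite k B] (f : A ⟶ B),
    Function.Surjective f.hom → Function.Injective (T.map f)
  exact : ∀ {A B C : Rep.{0} k Γ} [Module.Finite k A] [Module.Finite k B] [Module.Finite k C]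
    (f : A ⟶ B) (g : B ⟶ C), Function.Injective f.hom → Function.Surjective g.hom →
    (∀ b, g.hom b = 0 ↔ ∃ a, f.hom a = b) → ∀ t, T.map f t = 0 → ∃ u, T.map g u = t

end DualFun

/-- Right multiplication by `g` on the left regular representation. -/
noncomputable def rmul (g : Γ) : Rep.leftRegular k Γ ⟶ Rep.leftRegular k Γ :=
  Rep.leftRegularHom (Rep.leftRegular k Γ) (MonoidAlgebra.single g 1)

lemma leftRegular_hom_ext {A : Rep.{0} k Γ} {f g : Rep.leftRegular k Γ ⟶ A}
    (h : f.hom (MonoidAlgebra.single 1 1) = g.hom (MonoidAlgebra.single 1 1)) : f = g := by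
  apply (Rep.leftRegularHomEquiv A).injective
  simpa [Rep.leftRegularHomEquiv, Rep.homEquiv] using h


lemma rmul_one : rmul (k := k) (1 : Γ) = 𝟙 _ :=
  leftRegular_hom_ext (by simp [rmul, Rep.leftRegularHom_hom_single])

lemma rmul_mul (g h : Γ) : rmul (k := k) (g * h) = rmul g ≫ rmul h :=
  leftRegular_hom_ext (by simp [rmul, Rep.leftRegularHom_hom_single])

section leftRegularHom

variable (M : Rep.{0} k Γ)

lemma leftRegularHom_add (m m' : M) :
    Rep.leftRegularHom M (m + m') = Rep.leftRegularHom M m + Rep.leftRegularHom M m' :=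
  leftRegular_hom_ext (by simp [Rep.leftRegularHom_hom_single, Rep.add_hom])

lemma leftRegularHom_smul (c : k) (m : M) :
    Rep.leftRegularHom M (c • m) = c • Rep.leftRegularHom M m :=
  leftRegular_hom_ext (by simp [Rep.leftRegularHom_hom_single, Rep.smul_hom])

lemma leftRegularHom_rho (g : Γ) (m : M) :
    Rep.leftRegularHom M (M.ρ g m) = rmul g ≫ Rep.leftRegularHom M m :=
  leftRegular_hom_ext (by simp [rmul, Rep.leftRegularHom_hom_single])

lemma leftRegularHom_comp {M N : Rep.{0} k Γ} (f : M ⟶ N) (m : M) :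
    Rep.leftRegularHom M m ≫ f = Rep.leftRegularHom N (f.hom m) :=
  leftRegular_hom_ext (by simp [Rep.leftRegularHom_hom_single])

end leftRegularHom


namespace DualFun

variable (T : DualFun k Γ)

/-- The `Γ`-action on `T(k[Γ])` through right multiplications. -/
noncomputable def Irep : Representation k Γ (T.obj (Rep.leftRegular k Γ)) where
  toFun g := T.map (rmul g)
  map_one' := by rw [rmul_one, T.map_id]; rfl
  map_mul' g h := by rw [rmul_mul, T.map_comp]; rfl

/-- The dualizing module of `T` at level `Γ`. -/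
noncomputable abbrev I : Rep.{0} k Γ := Rep.of T.Irep

lemma I_ρ_apply (g : Γ) (y : T.obj (Rep.leftRegular k Γ)) :
    T.I.ρ g y = T.map (rmul g) y := rfl

variable (M : Rep.{0} k Γ)

/-- `m ↦ T(ev_m)(t)`. -/
noncomputable def PhiLin (t : T.obj M) : M →ₗ[k] T.obj (Rep.leftRegular k Γ) where
  toFun m := T.map (Rep.leftRegularHom M m) t
  map_add' m m' := by rw [leftRegularHom_add, T.map_add]; rfl
  map_smul' c m := by rw [leftRegularHom_smul, T.map_smul]; rfl

lemma PhiLin_apply (t : T.obj M) (m : M) : T.PhiLin M t m = T.map (Rep.leftRegularHom M m) t := rfl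

/-- The Eilenberg-Watts comparison map `T(M) → Hom_Γ(M, T(k[Γ]))`. -/
noncomputable def Phi : T.obj M →ₗ[k] (M ⟶ T.I) where
  toFun t := Rep.ofHom (ρ := M.ρ) (σ := T.Irep) ⟨T.PhiLin M t, fun g => by
    ext m
    simp only [LinearMap.comp_apply, PhiLin_apply]
    rw [leftRegularHom_rho, T.map_comp_apply]; rfl⟩
  map_add' t t' := by
    ext m
    exact _root_.map_add (T.map (Rep.leftRegularHom M m)) t t'
  map_smul' c t := by
    ext m
    exact _root_.map_smul (T.map (Rep.leftRegularHom M m)) c t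

lemma Phi_hom_apply (t : T.obj M) (m : M) :
    (T.Phi M t).hom m = T.map (Rep.leftRegularHom M m) t := rfl

end DualFun


section free

variable {B : Type} [Fintype B] [DecidableEq B]

/-- The `b`-th inclusion `k[Γ] ⟶ k[Γ]^B`. -/
noncomputable def inc (b : B) : Rep.leftRegular k Γ ⟶ Rep.free k Γ B :=
  Rep.leftRegularHom _ (Finsupp.single b (MonoidAlgebra.single 1 1))

/-- The `b`-th projection `k[Γ]^B ⟶ k[Γ]`. -/
noncomputable def prj (b : B) : Rep.free k Γ B ⟶ Rep.leftRegular k Γ :=
  Rep.freeLift k Γ _ (fun b' => if b' = b then MonoidAlgebra.single 1 1 else 0)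

lemma inc_freeLift (M : Rep.{0} k Γ) (f : B → M) (b : B) :
    inc b ≫ Rep.freeLift k Γ M f = Rep.leftRegularHom M (f b) := by
  rw [inc, leftRegularHom_comp]
  congr 1
  simpa using Representation.freeLift_single_single (σ := M.ρ) b (1 : Γ) (1 : k) f

lemma inc_prj (b b' : B) :
    inc (k := k) (Γ := Γ) b ≫ prj b' = if b = b' then 𝟙 _ else 0 := by
  rw [prj, inc_freeLift]
  split_ifs with h
  · exact leftRegular_hom_ext (by simp [Rep.leftRegularHom_hom_single])
  · exact leftRegular_hom_ext (by simp [Rep.leftRegularHom_hom_single])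

lemma sum_prj_inc : ∑ b : B, prj (k := k) (Γ := Γ) b ≫ inc b = 𝟙 (Rep.free k Γ B) := by
  apply Rep.free_ext
  intro i
  rw [Rep.sum_hom]
  simp only [Rep.hom_comp, Rep.hom_id]
  rw [Representation.IntertwiningMap.sum_apply, Representation.IntertwiningMap.id_apply]
  simp only [Representation.IntertwiningMap.comp_apply]
  have h : ∀ x : B, (prj (k := k) (Γ := Γ) x).hom (Finsupp.single i (MonoidAlgebra.single 1 1))
      = if i = x then MonoidAlgebra.single 1 1 else 0 := by
    intro x
    have := Representation.freeLift_single_single (σ := (Rep.leftRegular k Γ).ρ) i (1 : Γ) (1 : k)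
      (fun b' => if b' = x then (MonoidAlgebra.single 1 1 : MonoidAlgebra k Γ) else 0)
    simpa [prj] using this
  simp only [h]
  rw [Finset.sum_eq_single i]
  · simp [inc, Rep.leftRegularHom_hom_single]
  · intro b _ hb
    rw [if_neg (Ne.symm hb)]; simp
  · intro hi; exact absurd (Finset.mem_univ i) hi

end free


lemma leftRegularHom_zero (M : Rep.{0} k Γ) : Rep.leftRegularHom M (0 : M) = 0 := by
  have := leftRegularHom_smul M (0 : k) (0 : M)
  simpa using this

lemma leftRegularHom_single (g : Γ) (c : k) :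
    Rep.leftRegularHom (Rep.leftRegular k Γ) (MonoidAlgebra.single g c) = c • rmul g :=
  leftRegular_hom_ext (by simp [rmul, Rep.leftRegularHom_hom_single, Rep.smul_hom])

namespace DualFun

variable (T : DualFun k Γ)

lemma map_leftRegularHom_hom {M : Rep.{0} k Γ} (φ : M ⟶ T.I) (m : M)
    (r : Rep.leftRegular k Γ) :
    T.map (Rep.leftRegularHom (Rep.leftRegular k Γ) r) (φ.hom m)
      = φ.hom ((Rep.leftRegularHom M m).hom r) := by
  induction r using MonoidAlgebra.induction_linear with
  | zero =>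
    rw [leftRegularHom_zero, _root_.map_zero, _root_.map_zero]
    exact T.map_zero_apply _
  | add x y hx hy =>
    rw [leftRegularHom_add, _root_.map_add, _root_.map_add, ← hx, ← hy]
    exact T.map_add_apply _ _ _
  | single g c =>
    rw [leftRegularHom_single, Rep.leftRegularHom_hom_single, _root_.map_smul,
      Rep.hom_comm_apply]
    exact T.map_smul_apply _ _ _

lemma Phi_natural {M N : Rep.{0} k Γ} (f : M ⟶ N) (t : T.obj N) :
    T.Phi M (T.map f t) = f ≫ T.Phi N t := by
  ext m
  show (T.Phi M (T.map f t)).hom m = (T.Phi N t).hom (f.hom m)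
  rw [Phi_hom_apply, Phi_hom_apply, ← T.map_comp_apply, leftRegularHom_comp]

end DualFun


namespace DualFun

variable (T : DualFun k Γ)

section

variable (M : Rep.{0} k Γ) {B : Type} [Fintype B] [DecidableEq B] (f : B → M)

lemma map_freeLift (t : T.obj M) :
    T.map (Rep.freeLift k Γ M f) t
      = ∑ b, T.map (prj b) (T.map (Rep.leftRegularHom M (f b)) t) := by
  have h := T.map_id_apply (T.map (Rep.freeLift k Γ M f) t)
  rw [← sum_prj_inc, T.map_sum_apply] at h
  rw [← h]
  refine Finset.sum_congr rfl fun b _ => ?_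
  rw [T.map_comp_apply, ← T.map_comp_apply (inc b), inc_freeLift]

omit [Fintype B] [DecidableEq B] in
lemma freeLift_surjective (hf : Submodule.span k (Set.range f) = ⊤) :
    Function.Surjective (Rep.freeLift k Γ M f).hom := by
  have : LinearMap.range (Rep.freeLift k Γ M f).hom.toLinearMap = ⊤ := by
    rw [eq_top_iff, ← hf, Submodule.span_le]
    rintro _ ⟨b, rfl⟩
    refine ⟨Finsupp.single b (MonoidAlgebra.single 1 1), ?_⟩
    simpa using Representation.freeLift_single_single (σ := M.ρ) b (1 : Γ) (1 : k) f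
  intro m
  have hm : m ∈ LinearMap.range (Rep.freeLift k Γ M f).hom.toLinearMap := by rw [this]; trivial
  obtain ⟨x, hx⟩ := hm
  exact ⟨x, hx⟩

end

section glue

variable (M : Rep.{0} k Γ) {B : Type} [Fintype B] [DecidableEq B] (φ : M ⟶ T.I) (f : B → M)

/-- The element of `T(k[Γ]^B)` with components `φ (f b)`. -/
noncomputable def glue : T.obj (Rep.free k Γ B) := ∑ b, T.map (prj b) (φ.hom (f b))

lemma sum_prj_inc_freeLift_apply (x : Rep.free k Γ B) :
    ∑ b, (prj b ≫ inc b ≫ Rep.freeLift k Γ M f).hom x = (Rep.freeLift k Γ M f).hom x := by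
  have h : (∑ b : B, prj (k := k) (Γ := Γ) b ≫ inc b) ≫ Rep.freeLift k Γ M f
      = Rep.freeLift k Γ M f := by rw [sum_prj_inc, Category.id_comp]
  rw [Preadditive.sum_comp] at h
  have h2 := congrArg (fun q : Rep.free k Γ B ⟶ M => q.hom x) h
  simp only [Rep.sum_hom, Representation.IntertwiningMap.sum_apply, Category.assoc] at h2
  exact h2

lemma map_leftRegularHom_glue (x : Rep.free k Γ B) :
    T.map (Rep.leftRegularHom _ x) (T.glue M φ f) = φ.hom ((Rep.freeLift k Γ M f).hom x) := by
  unfold glue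
  rw [_root_.map_sum]
  have : ∀ b, T.map (Rep.leftRegularHom _ x) (T.map (prj b) (φ.hom (f b)))
      = φ.hom ((prj b ≫ inc b ≫ Rep.freeLift k Γ M f).hom x) := by
    intro b
    rw [← T.map_comp_apply, leftRegularHom_comp, map_leftRegularHom_hom, inc_freeLift]
    rfl
  simp only [this]
  rw [← _root_.map_sum, sum_prj_inc_freeLift_apply]

lemma map_inc_glue (b : B) : T.map (inc b) (T.glue M φ f) = φ.hom (f b) := by
  rw [inc, map_leftRegularHom_glue]
  congr 1
  simpa using Representation.freeLift_single_single (σ := M.ρ) b (1 : Γ) (1 : k) f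

end glue

variable [Finite Γ]

theorem Phi_injective (hT : T.LeftExact) (M : Rep.{0} k Γ) [Module.Finite k M] :
    Function.Injective (T.Phi M) := by
  classical
  rw [injective_iff_map_eq_zero]
  intro t ht
  obtain ⟨s, hs⟩ := (Module.Finite.fg_top : (⊤ : Submodule k M).FG)
  let f : ↥s → M := fun b => b.1
  have hf : Submodule.span k (Set.range f) = ⊤ := by
    rw [← hs]; congr 1; ext x; simp [f]
  apply hT.inj (Rep.freeLift k Γ M f) (freeLift_surjective M f hf)
  rw [map_freeLift, _root_.map_zero]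
  refine Finset.sum_eq_zero fun b _ => ?_
  have : T.map (Rep.leftRegularHom M (f b)) t = 0 := by
    rw [← Phi_hom_apply, ht]; rfl
  rw [this, _root_.map_zero]

theorem Phi_surjective (hT : T.LeftExact) (M : Rep.{0} k Γ) [Module.Finite k M] :
    Function.Surjective (T.Phi M) := by
  classical
  intro φ
  obtain ⟨s, hs⟩ := (Module.Finite.fg_top : (⊤ : Submodule k M).FG)
  let f : ↥s → M := fun b => b.1
  have hf : Submodule.span k (Set.range f) = ⊤ := by
    rw [← hs]; congr 1; ext x; simp [f]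
  have hπs := freeLift_surjective M f hf
  -- the kernel of `π` as a subrepresentation
  let W : Submodule k (Rep.free k Γ ↥s) := LinearMap.ker (Rep.freeLift k Γ M f).hom.toLinearMap
  have hW : ∀ g, W ≤ W.comap ((Rep.free k Γ ↥s).ρ g) := by
    intro g x hx
    simp only [W, Submodule.mem_comap, LinearMap.mem_ker] at hx ⊢
    rw [Representation.IntertwiningMap.toLinearMap_apply] at hx ⊢
    rw [Rep.hom_comm_apply, hx, _root_.map_zero]
  let N : Rep.{0} k Γ := Rep.subrepresentation _ W hW
  let j : N ⟶ Rep.free k Γ ↥s := Rep.subtype _ W hW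
  have : Module.Finite k N := inferInstanceAs (Module.Finite k W)
  have hj : T.map j (T.glue M φ f) = 0 := by
    apply T.Phi_injective hT N
    rw [_root_.map_zero]
    ext n
    show (T.Phi N (T.map j (T.glue M φ f))).hom n = 0
    rw [Phi_hom_apply, ← T.map_comp_apply, leftRegularHom_comp, map_leftRegularHom_glue]
    have hn : (Rep.freeLift k Γ M f).hom (j.hom n) = 0 := n.2
    rw [hn, _root_.map_zero]
  obtain ⟨u, hu⟩ := hT.exact j (Rep.freeLift k Γ M f) (fun a b h => Subtype.ext h) hπs
    (fun b => ⟨fun hb => ⟨⟨b, hb⟩, rfl⟩, by rintro ⟨a, rfl⟩; exact a.2⟩) (T.glue M φ f) hj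
  refine ⟨u, ?_⟩
  -- the two morphisms agree on the spanning set `s`
  have hlin : (T.Phi M u).hom.toLinearMap = φ.hom.toLinearMap := by
    apply LinearMap.ext_on hf
    rintro _ ⟨b, rfl⟩
    show (T.Phi M u).hom (f b) = φ.hom (f b)
    rw [Phi_hom_apply, ← inc_freeLift, T.map_comp_apply, hu, map_inc_glue]
  ext m
  exact congrArg (fun L => L m) hlin

theorem Phi_bijective (hT : T.LeftExact) (M : Rep.{0} k Γ) [Module.Finite k M] :
    Function.Bijective (T.Phi M) :=
  ⟨T.Phi_injective hT M, T.Phi_surjective hT M⟩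

/-- The Eilenberg-Watts isomorphism `T(M) ≃ Hom_Γ(M, T(k[Γ]))`. -/
noncomputable def PhiEquiv (hT : T.LeftExact) (M : Rep.{0} k Γ) [Module.Finite k M] :
    T.obj M ≃ₗ[k] (M ⟶ T.I) :=
  LinearEquiv.ofBijective (T.Phi M) (T.Phi_bijective hT M)

/-- A natural transformation `T' ⇒ T` induces a `Γ`-map of dualizing modules (Yoneda). -/
noncomputable def natI {T' : DualFun k Γ} (η : ∀ A : Rep.{0} k Γ, T'.obj A →ₗ[k] T.obj A)
    (hη : ∀ {A B : Rep.{0} k Γ} (f : A ⟶ B) (t : T'.obj B), η A (T'.map f t) = T.map f (η B t)) :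
    T'.I ⟶ T.I :=
  Rep.ofHom (ρ := T'.Irep) (σ := T.Irep) ⟨η (Rep.leftRegular k Γ), fun g => by
    ext t
    exact hη (rmul g) t⟩

lemma natI_hom_apply {T' : DualFun k Γ} (η : ∀ A : Rep.{0} k Γ, T'.obj A →ₗ[k] T.obj A)
    (hη : ∀ {A B : Rep.{0} k Γ} (f : A ⟶ B) (t : T'.obj B), η A (T'.map f t) = T.map f (η B t))
    (t : T'.obj (Rep.leftRegular k Γ)) : (T.natI η hη).hom t = η _ t := rfl

lemma Phi_nat {T' : DualFun k Γ} (η : ∀ A : Rep.{0} k Γ, T'.obj A →ₗ[k] T.obj A)
    (hη : ∀ {A B : Rep.{0} k Γ} (f : A ⟶ B) (t : T'.obj B), η A (T'.map f t) = T.map f (η B t))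
    (M : Rep.{0} k Γ) (t : T'.obj M) :
    T.Phi M (η M t) = T'.Phi M t ≫ T.natI η hη := by
  ext m
  show (T.Phi M (η M t)).hom m = (T.natI η hη).hom ((T'.Phi M t).hom m)
  rw [Phi_hom_apply, natI_hom_apply, Phi_hom_apply, hη]

end DualFun

end Fermat.Agent.S55.EW55
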