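/-
S55 / route R3, variant W55 (helper55): the Eilenberg–Watts data at a FINITE level.

For a level `V` of `globalLevels S` and `Γ = G_ℚ ⧸ V`:
* `TS S V : DualFun (ZMod p) Γ`, `N ↦ H²(G_S, infl N)^*`, left exact by `GlobalRightExactL`;
* for `q ∈ S`, `D q = decompImage π q ≤ Γ`, `piQ q : G_q →* D q`, and
  `TQ S V q : DualFun (ZMod p) (D q)`, `N ↦ H²(G_q, infl N)^*`, left exact by `LocalRightExactL`.
-/
import Fermat.Agent.S55.EW55.Watts
import Fermat.Agent.S55.Profin15.ContractB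
import Fermat.Agent.S55.Profin15.LESNat
import Fermat.Agent.S55.ProfinLocal31.LevelModel
import Fermat.Agent.S55.ProfinLoc80.Density

set_option autoImplicit false
set_option linter.unusedSectionVars false
set_option linter.unusedVariables false
set_option linter.style.haveILetI false

open CategoryTheory Module groupCohomology ExtCitation
open Fermat.Agent.S55.Profin15
open Fermat.Agent.Lib.FrobeniusExists (Qb GQ)
open Fermat.Agent.S55.Contract34
open Fermat.Agent.S55.Profin15.Plug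
open Fermat.Agent.S55.ProfinLocal31

noncomputable section

namespace Fermat.Agent.S55.EW55.Inst

/-! ### Generic: the dual of level `H²` along a group homomorphism, as a `DualFun` -/

section Generic

variable {k : Type} [Field k] {G Γ : Type} [Group G] [Group Γ] (𝒰 : LevelStr G) (π : G →* Γ)

/-- `H²` of an inflated morphism. -/
def H2res {A B : Rep.{0} k Γ} (f : A ⟶ B) : 𝒰.H2 (Rep.res π A) →ₗ[k] 𝒰.H2 (Rep.res π B) :=
  𝒰.H2map (LevelStr.resLin π f.hom.toLinearMap) ((LevelStr.isEquivariant_hom f).res π)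

lemma H2res_H2π {A B : Rep.{0} k Γ} (f : A ⟶ B) (c : ↥(𝒰.Z₂ (Rep.res π A))) :
    H2res 𝒰 π f (𝒰.H2π _ c) = 𝒰.H2π _ (𝒰.Z₂map (LevelStr.resLin π f.hom.toLinearMap)
      ((LevelStr.isEquivariant_hom f).res π) c) := rfl

lemma H2res_id (A : Rep.{0} k Γ) (x : 𝒰.H2 (Rep.res π A)) : H2res 𝒰 π (𝟙 A) x = x := by
  obtain ⟨c, rfl⟩ := Submodule.mkQ_surjective _ x
  rfl

lemma H2res_comp {A B C : Rep.{0} k Γ} (f : A ⟶ B) (g : B ⟶ C) (x : 𝒰.H2 (Rep.res π A)) :
    H2res 𝒰 π (f ≫ g) x = H2res 𝒰 π g (H2res 𝒰 π f x) := by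
  obtain ⟨c, rfl⟩ := Submodule.mkQ_surjective _ x
  rfl

lemma H2res_add {A B : Rep.{0} k Γ} (f g : A ⟶ B) (x : 𝒰.H2 (Rep.res π A)) :
    H2res 𝒰 π (f + g) x = H2res 𝒰 π f x + H2res 𝒰 π g x := by
  obtain ⟨c, rfl⟩ := Submodule.mkQ_surjective _ x
  rw [H2res_H2π, H2res_H2π, H2res_H2π, ← map_add]
  congr 1

lemma H2res_smul {A B : Rep.{0} k Γ} (a : k) (f : A ⟶ B) (x : 𝒰.H2 (Rep.res π A)) :
    H2res 𝒰 π (a • f) x = a • H2res 𝒰 π f x := by
  obtain ⟨c, rfl⟩ := Submodule.mkQ_surjective _ x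
  rw [H2res_H2π, H2res_H2π, ← map_smul]
  congr 1

variable (k) in
/-- The functor `N ↦ H²(𝒰; res π N)^*`. -/
def dualH2 : DualFun k Γ where
  obj N := Module.Dual k (𝒰.H2 (Rep.res π N))
  map f := (H2res 𝒰 π f).dualMap
  map_id A := by
    refine LinearMap.ext fun t => LinearMap.ext fun x => ?_
    show t (H2res 𝒰 π (𝟙 A) x) = t x
    rw [H2res_id]
  map_comp f g := by
    refine LinearMap.ext fun t => LinearMap.ext fun x => ?_
    show t (H2res 𝒰 π (f ≫ g) x) = t (H2res 𝒰 π g (H2res 𝒰 π f x))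
    rw [H2res_comp]
  map_add f g := by
    refine LinearMap.ext fun t => LinearMap.ext fun x => ?_
    show t (H2res 𝒰 π (f + g) x) = t (H2res 𝒰 π f x) + t (H2res 𝒰 π g x)
    rw [H2res_add, map_add]
  map_smul a f := by
    refine LinearMap.ext fun t => LinearMap.ext fun x => ?_
    show t (H2res 𝒰 π (a • f) x) = a • t (H2res 𝒰 π f x)
    rw [H2res_smul, map_smul]

lemma dualH2_map {A B : Rep.{0} k Γ} (f : A ⟶ B) :
    (dualH2 k 𝒰 π).map f = (H2res 𝒰 π f).dualMap := rfl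

/-- inflated modules are smooth as soon as `ker π` contains a level -/
lemma isSmooth_res (hπ : ∃ U ∈ 𝒰.levels, U ≤ π.ker) (N : Rep.{0} k Γ) :
    𝒰.IsSmooth (Rep.res π N) := by
  obtain ⟨U, hU, hle⟩ := hπ
  intro m
  refine ⟨U, hU, fun s hs => ?_⟩
  have h1 : π s = 1 := MonoidHom.mem_ker.1 (hle hs)
  show N.ρ (π s) m = m
  rw [h1, map_one]
  rfl

/-- middle exactness, dualised -/
lemma exists_dualMap_eq (hπ : ∃ U ∈ 𝒰.levels, U ≤ π.ker) {A B C : Rep.{0} k Γ}
    (f : A ⟶ B) (g : B ⟶ C) (hf : Function.Injective f.hom) (hg : Function.Surjective g.hom)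
    (hex : ∀ b, g.hom b = 0 ↔ ∃ a, f.hom a = b)
    (t : Module.Dual k (𝒰.H2 (Rep.res π B))) (ht : (H2res 𝒰 π f).dualMap t = 0) :
    ∃ u : Module.Dual k (𝒰.H2 (Rep.res π C)), (H2res 𝒰 π g).dualMap u = t := by
  have hSE : LevelStr.ShortExact (LevelStr.resLin π f.hom.toLinearMap)
      (LevelStr.resLin π g.hom.toLinearMap) :=
    { equivariant_left := (LevelStr.isEquivariant_hom f).res π
      equivariant_right := (LevelStr.isEquivariant_hom g).res π
      injective := hf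
      surjective := hg
      exact := fun b => by
        rw [Set.mem_range]
        exact hex b }
  have hexact := hSE.exact_H2map_H2map 𝒰 (isSmooth_res 𝒰 π hπ B)
  have hmem : t ∈ LinearMap.range (H2res 𝒰 π g).dualMap := by
    rw [LinearMap.range_dualMap_eq_dualAnnihilator_ker, Submodule.mem_dualAnnihilator]
    intro x hx
    rw [LinearMap.mem_ker] at hx
    obtain ⟨y, rfl⟩ := (hexact x).1 hx
    exact LinearMap.congr_fun ht y
  exact hmem

/-- **Left exactness of `N ↦ H²(𝒰; res π N)^*`** from right exactness of `H²` on the inflated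
finite modules (middle exactness is the long exact sequence of level cohomology). -/
theorem dualH2_leftExact (hπ : ∃ U ∈ 𝒰.levels, U ≤ π.ker)
    (hre : ∀ (A B : Rep.{0} k Γ) [Module.Finite k A] [Module.Finite k B] (f : A ⟶ B),
      Function.Surjective f.hom → Function.Surjective (H2res 𝒰 π f)) :
    (dualH2 k 𝒰 π).LeftExact where
  inj := by
    intro A B _ _ f hf
    exact LinearMap.dualMap_injective_of_surjective (hre A B f hf)
  exact := by
    intro A B C _ _ _ f g hf hg hex t ht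
    exact exists_dualMap_eq 𝒰 π hπ f g hf hg hex t ht

end Generic

/-! ### The global and local instances -/

section Instance

variable {p : ℕ} [Fact p.Prime] (S : Finset Nat.Primes) (V : Subgroup GQ) [V.Normal]

/-- `T_V(N) = H²(G_S, infl N)^*` for `N` a representation of `Γ = G_ℚ ⧸ V`. -/
def TS : DualFun (ZMod p) (GQ ⧸ V) :=
  dualH2 (ZMod p) (globalLevels S) (QuotientGroup.mk' V)

lemma mk'_eq_one {s : GQ} (hs : s ∈ V) : QuotientGroup.mk' V s = 1 :=
  (QuotientGroup.eq_one_iff s).2 hs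

lemma isSRep_res (hV : V ∈ (globalLevels S).levels) (N : Rep.{0} (ZMod p) (GQ ⧸ V)) :
    IsSRep p S (Rep.res (QuotientGroup.mk' V) N) :=
  ⟨V, hV, fun s hs => by
    show N.ρ (QuotientGroup.mk' V s) = 1
    rw [mk'_eq_one V hs, map_one]⟩

lemma exists_level_le_ker (hV : V ∈ (globalLevels S).levels) :
    ∃ U ∈ (globalLevels S).levels, U ≤ (QuotientGroup.mk' V).ker :=
  ⟨V, hV, by rw [QuotientGroup.ker_mk']⟩

/-- **`T_V` is left exact** (plug (P1)). -/
theorem TS_leftExact (hV : V ∈ (globalLevels S).levels) (h1 : GlobalRightExactL p S) :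
    (TS (p := p) S V).LeftExact :=
  dualH2_leftExact _ _ (exists_level_le_ker S V hV) (fun A B _ _ f hf => by
    haveI : FiniteDimensional (ZMod p) (Rep.res (QuotientGroup.mk' V) A) :=
      inferInstanceAs (FiniteDimensional (ZMod p) A)
    haveI : FiniteDimensional (ZMod p) (Rep.res (QuotientGroup.mk' V) B) :=
      inferInstanceAs (FiniteDimensional (ZMod p) B)
    exact h1 (Rep.res (QuotientGroup.mk' V) A) (Rep.res (QuotientGroup.mk' V) B)
      (isSRep_res S V hV A) (isSRep_res S V hV B)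
      ((Rep.resFunctor (QuotientGroup.mk' V)).map f) hf)

/-- the decomposition group at `q` in `Γ = G_ℚ ⧸ V` -/
abbrev D (q : Nat.Primes) : Subgroup (GQ ⧸ V) := ShaFin.decompImage (QuotientGroup.mk' V) q

/-- `G_q → D_q` -/
def piQ (q : Nat.Primes) : primeLocalGaloisGroup q →* ↥(D V q) :=
  ((QuotientGroup.mk' V).comp (primeLocalToGlobal q)).codRestrict (D V q) (fun g =>
    (ShaFin.mem_decompImage_iff _ q _).2 ⟨primeLocalToGlobal q g,
      Fermat.Agent.S55.ProfinLocal26.Local.primeLocalToGlobal_mem_decomp q g, rfl⟩)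

lemma coe_piQ (q : Nat.Primes) (g : primeLocalGaloisGroup q) :
    ((piQ V q g : ↥(D V q)) : GQ ⧸ V) = QuotientGroup.mk' V (primeLocalToGlobal q g) := rfl

lemma piQ_surjective (q : Nat.Primes) : Function.Surjective (piQ V q) := by
  rintro ⟨d, hd⟩
  obtain ⟨σ, hσ, rfl⟩ := (ShaFin.mem_decompImage_iff _ q d).1 hd
  rw [← Fermat.Agent.S55.ProfinLoc80.Density.range_primeLocalToGlobal] at hσ
  obtain ⟨τ, rfl⟩ := hσ
  exact ⟨τ, Subtype.ext rfl⟩

/-- `T_{V,q}(N) = H²(G_q, infl N)^*` for `N` a representation of `D_q`. -/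
def TQ (q : Nat.Primes) : DualFun (ZMod p) ↥(D V q) :=
  dualH2 (ZMod p) (pullLevels (primeLocalToGlobal q)) (piQ V q)

lemma piQ_eq_one (q : Nat.Primes) {g : primeLocalGaloisGroup q}
    (hg : primeLocalToGlobal q g ∈ V) : piQ V q g = 1 :=
  Subtype.ext (by rw [coe_piQ, mk'_eq_one V hg]; rfl)

lemma isLocRep_res (hV : V ∈ (globalLevels S).levels) (q : Nat.Primes)
    (N : Rep.{0} (ZMod p) ↥(D V q)) : IsLocRep p q (Rep.res (piQ V q) N) := by
  obtain ⟨_, F, hF, hVF⟩ := hV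
  refine ⟨F, hF.1, fun h hh => ?_⟩
  show N.ρ (piQ V q h) = 1
  rw [piQ_eq_one V q (hVF ▸ hh), map_one]

lemma exists_level_le_ker_piQ (hV : V ∈ (globalLevels S).levels) (q : Nat.Primes) :
    ∃ U ∈ (pullLevels (primeLocalToGlobal q)).levels, U ≤ (piQ V q).ker := by
  obtain ⟨hn, F, hF, hVF⟩ := hV
  refine ⟨V.comap (primeLocalToGlobal q), LevelStr.mem_comap_levels.2 ⟨V, ⟨hn, F, hF.1, hVF⟩, rfl⟩,
    fun g hg => ?_⟩
  exact MonoidHom.mem_ker.2 (piQ_eq_one V q (Subgroup.mem_comap.1 hg))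

/-- **`T_{V,q}` is left exact** (plug (P2)). -/
theorem TQ_leftExact (hV : V ∈ (globalLevels S).levels) (q : Nat.Primes)
    (h2 : LocalRightExactL p q) : (TQ (p := p) V q).LeftExact :=
  dualH2_leftExact _ _ (exists_level_le_ker_piQ S V hV q) (fun A B _ _ f hf => by
    haveI : FiniteDimensional (ZMod p) (Rep.res (piQ V q) A) :=
      inferInstanceAs (FiniteDimensional (ZMod p) A)
    haveI : FiniteDimensional (ZMod p) (Rep.res (piQ V q) B) :=
      inferInstanceAs (FiniteDimensional (ZMod p) B)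
    exact h2 (Rep.res (piQ V q) A) (Rep.res (piQ V q) B)
      (isLocRep_res S V hV q A) (isLocRep_res S V hV q B)
      ((Rep.resFunctor (piQ V q)).map f) hf)

end Instance

/-! ### `μ_p` at the finite level, the local pairing maps `psi`, and the maps `aq` -/

section Pairing

variable {p : ℕ} [Fact p.Prime] (S : Finset Nat.Primes) (V : Subgroup GQ) [V.Normal]
variable (hμ : V ≤ (mu p).ρ.ker)

/-- `μ_p` as a representation of `Γ = G_ℚ ⧸ V`. -/
def muV : Rep.{0} (ZMod p) (GQ ⧸ V) := LevelModel.levelRep (mu p) V hμ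

/-- `μ_p` as a representation of `D_q`. -/
abbrev muQ (q : Nat.Primes) : Rep.{0} (ZMod p) ↥(D V q) := Rep.res (D V q).subtype (muV V hμ)

/-- the identity `infl (μ_q) → res_{G_q} μ_p` -/
def idMu (q : Nat.Primes) :
    Rep.res (piQ V q) (muQ V hμ q) →ₗ[ZMod p] Rep.res (primeLocalToGlobal q) (mu p) :=
  LinearMap.id

lemma idMu_equivariant (q : Nat.Primes) : LevelStr.IsEquivariant (idMu V hμ q) :=
  fun _ _ => rfl

variable (lam : ∀ q : ↥S, (pullLevels (primeLocalToGlobal q.1)).H2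
      (Rep.res (primeLocalToGlobal q.1) (mu p)) →ₗ[ZMod p] ZMod p)

/-- the functional `lam q` on `H²(G_q, infl μ_q)` -/
def lamV (q : ↥S) : Module.Dual (ZMod p)
    ((pullLevels (primeLocalToGlobal q.1)).H2 (Rep.res (piQ V q.1) (muQ V hμ q.1))) :=
  lam q ∘ₗ (pullLevels (primeLocalToGlobal q.1)).H2map (idMu V hμ q.1) (idMu_equivariant V hμ q.1)

/-- **the local pairing map** `Hom_{D_q}(N, μ_q) → H²(G_q, infl N)^*`, `φ ↦ lam_q ∘ H²(φ)`. -/
def psi (q : ↥S) (N : Rep.{0} (ZMod p) ↥(D V q.1)) :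
    (N ⟶ muQ V hμ q.1) →ₗ[ZMod p] (TQ (p := p) V q.1).obj N where
  toFun φ := lamV S V hμ lam q ∘ₗ H2res (pullLevels (primeLocalToGlobal q.1)) (piQ V q.1) φ
  map_add' φ φ' := by
    refine LinearMap.ext fun x => ?_
    show lamV S V hμ lam q (H2res _ _ (φ + φ') x) =
      lamV S V hμ lam q (H2res _ _ φ x) + lamV S V hμ lam q (H2res _ _ φ' x)
    rw [H2res_add, map_add]
  map_smul' a φ := by
    refine LinearMap.ext fun x => ?_
    show lamV S V hμ lam q (H2res _ _ (a • φ) x) = a • lamV S V hμ lam q (H2res _ _ φ x)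
    rw [H2res_smul, map_smul]

lemma psi_apply (q : ↥S) (N : Rep.{0} (ZMod p) ↥(D V q.1)) (φ : N ⟶ muQ V hμ q.1) :
    psi S V hμ lam q N φ =
      lamV S V hμ lam q ∘ₗ H2res (pullLevels (primeLocalToGlobal q.1)) (piQ V q.1) φ := rfl

/-- naturality of `psi` -/
lemma psi_natural (q : ↥S) {A B : Rep.{0} (ZMod p) ↥(D V q.1)} (f : A ⟶ B)
    (φ : B ⟶ muQ V hμ q.1) :
    psi S V hμ lam q A (f ≫ φ) = (TQ (p := p) V q.1).map f (psi S V hμ lam q B φ) := by
  refine LinearMap.ext fun x => ?_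
  show lamV S V hμ lam q (H2res _ _ (f ≫ φ) x) = lamV S V hμ lam q (H2res _ _ φ (H2res _ _ f x))
  rw [H2res_comp]

/-- the identity `res_{G_q} (infl M) → infl_q (res_{D_q} M)` -/
def idRes (q : Nat.Primes) (M : Rep.{0} (ZMod p) (GQ ⧸ V)) :
    Rep.res (primeLocalToGlobal q) (Rep.res (QuotientGroup.mk' V) M) →ₗ[ZMod p]
      Rep.res (piQ V q) (Rep.res (D V q).subtype M) :=
  LinearMap.id

lemma idRes_equivariant (q : Nat.Primes) (M : Rep.{0} (ZMod p) (GQ ⧸ V)) :
    LevelStr.IsEquivariant (idRes V q M) :=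
  fun _ _ => rfl

/-- localisation at `q` of an inflated module -/
def locM (q : ↥S) (M : Rep.{0} (ZMod p) (GQ ⧸ V)) :
    (globalLevels S).H2 (Rep.res (QuotientGroup.mk' V) M) →ₗ[ZMod p]
      (pullLevels (primeLocalToGlobal q.1)).H2 (Rep.res (piQ V q.1) (Rep.res (D V q.1).subtype M)) :=
  (pullLevels (primeLocalToGlobal q.1)).H2map (idRes V q.1 M) (idRes_equivariant V q.1 M) ∘ₗ
    locq p S q.1 (Rep.res (QuotientGroup.mk' V) M)

/-- localisation commutes with the maps induced by morphisms of `Γ`-modules -/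
lemma locM_H2res (q : ↥S) {M M' : Rep.{0} (ZMod p) (GQ ⧸ V)} (f : M ⟶ M')
    (x : (globalLevels S).H2 (Rep.res (QuotientGroup.mk' V) M)) :
    locM S V q M' (H2res (globalLevels S) (QuotientGroup.mk' V) f x) =
      H2res (pullLevels (primeLocalToGlobal q.1)) (piQ V q.1)
        ((Rep.resFunctor (D V q.1).subtype).map f) (locM S V q M x) := by
  obtain ⟨c, rfl⟩ := Submodule.mkQ_surjective _ x
  rfl

/-- **the maps** `a_q(M) : Hom_{D_q}(res M, μ_q) → T_V(M)`, `φ ↦ lam_q ∘ H²(φ) ∘ loc_q`. -/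
def aq (q : ↥S) (M : Rep.{0} (ZMod p) (GQ ⧸ V)) :
    (Rep.res (D V q.1).subtype M ⟶ muQ V hμ q.1) →ₗ[ZMod p] (TS (p := p) S V).obj M :=
  (locM S V q M).dualMap ∘ₗ psi S V hμ lam q (Rep.res (D V q.1).subtype M)

lemma aq_apply (q : ↥S) (M : Rep.{0} (ZMod p) (GQ ⧸ V))
    (φ : Rep.res (D V q.1).subtype M ⟶ muQ V hμ q.1) :
    aq S V hμ lam q M φ = (psi S V hμ lam q (Rep.res (D V q.1).subtype M) φ) ∘ₗ locM S V q M :=
  rfl

/-- naturality of `aq` in the `Γ`-module -/
lemma aq_natural (q : ↥S) {M M' : Rep.{0} (ZMod p) (GQ ⧸ V)} (f : M ⟶ M')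
    (φ : Rep.res (D V q.1).subtype M' ⟶ muQ V hμ q.1) :
    aq S V hμ lam q M ((Rep.resFunctor (D V q.1).subtype).map f ≫ φ) =
      (TS (p := p) S V).map f (aq S V hμ lam q M' φ) := by
  refine LinearMap.ext fun x => ?_
  show lamV S V hμ lam q (H2res _ _ ((Rep.resFunctor (D V q.1).subtype).map f ≫ φ)
      (locM S V q M x)) =
    lamV S V hμ lam q (H2res _ _ φ (locM S V q M' (H2res _ _ f x)))
  rw [locM_H2res, H2res_comp]

end Pairing

end Fermat.Agent.S55.EW55.Inst
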