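import Mathlib

set_option autoImplicit false
set_option linter.unusedSimpArgs false
set_option linter.unnecessarySimpa false
set_option linter.unusedSectionVars false

open CategoryTheory groupCohomology

namespace Fermat.Agent.S55.EW55.FormalPT

variable {k : Type} [Field k] {Γ : Type} [Group Γ] {ι : Type} [Fintype ι]
variable (D : ι → Subgroup Γ) (M Z I : Rep.{0} k Γ)

/-- `Hom_k(M, Z)` with the conjugation action of `Γ`. -/
abbrev N : Rep.{0} k Γ := Rep.of (Representation.linHom M.ρ Z.ρ)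

lemma N_ρ_apply (γ : Γ) (n : M →ₗ[k] Z) (m : M) :
    (N M Z).ρ γ n m = Z.ρ γ (n (M.ρ γ⁻¹ m)) := rfl

/-- The module coinduced from `D v` of (the restriction of) `Z`: functions `f : Γ → Z` with
`f (d * x) = d • f x`, with `Γ` acting by right translation. -/
noncomputable abbrev CoindZ (v : ι) : Rep.{0} k Γ := Rep.coind (D v).subtype (Rep.res (D v).subtype Z)

lemma CoindZ_ρ_apply (v : ι) (γ x : Γ) (f : CoindZ D Z v) :
    ((CoindZ D Z v).ρ γ f).1 x = f.1 (x * γ) := rfl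

lemma CoindZ_mem (v : ι) (f : CoindZ D Z v) (d : Γ) (hd : d ∈ D v) (x : Γ) :
    f.1 (d * x) = Z.ρ d (f.1 x) := f.2 ⟨d, hd⟩ x

/-- The diagonal map `Z ⟶ coind_{D_v} Z`, `z ↦ (x ↦ x • z)`. -/
noncomputable def diag (v : ι) : Z ⟶ CoindZ D Z v :=
  Rep.ofHom (ρ := Z.ρ) (σ := Representation.coind (D v).subtype (Rep.res (D v).subtype Z).ρ)
    ⟨{ toFun := fun z => ⟨fun x => Z.ρ x z, fun d x => by simp [map_mul]⟩
       map_add' := fun z z' => by ext x; simp
       map_smul' := fun c z => by ext x; simp }, fun γ => by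
      ext z x
      show Z.ρ x (Z.ρ γ z) = Z.ρ (x * γ) z
      rw [map_mul]; rfl⟩

lemma diag_apply (v : ι) (z : Z) (x : Γ) : ((diag D Z v).hom z).1 x = Z.ρ x z := rfl


/-- Pairs `(c, n)`: a 1-cocycle `c : Γ → Hom_k(M,Z)` together with a trivialisation `n v` of
`c` on each `D v`. -/
def W : Submodule k ((Γ → N M Z) × (ι → N M Z)) where
  carrier := {w | w.1 ∈ cocycles₁ (N M Z) ∧
    ∀ v, ∀ d ∈ D v, w.1 d = (N M Z).ρ d (w.2 v) - w.2 v}
  add_mem' := by
    rintro w w' ⟨h1, h2⟩ ⟨h1', h2'⟩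
    refine ⟨(cocycles₁ (N M Z)).add_mem h1 h1', fun v d hd => ?_⟩
    simp only [Prod.fst_add, Prod.snd_add, Pi.add_apply, h2 v d hd, h2' v d hd, map_add]
    abel
  zero_mem' := ⟨(cocycles₁ (N M Z)).zero_mem, fun v d _ => by simp⟩
  smul_mem' := by
    rintro a w ⟨h1, h2⟩
    refine ⟨(cocycles₁ (N M Z)).smul_mem a h1, fun v d hd => ?_⟩
    simp only [Prod.smul_fst, Prod.smul_snd, Pi.smul_apply, h2 v d hd, map_smul, smul_sub]

variable {D M Z}

lemma W_cocycle (w : W D M Z) (γ γ' : Γ) :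
    w.1.1 (γ * γ') = (N M Z).ρ γ (w.1.1 γ') + w.1.1 γ :=
  (mem_cocycles₁_iff (A := N M Z) w.1.1).1 w.2.1 γ γ'

lemma W_cocycle_apply (w : W D M Z) (γ γ' : Γ) (m : M) :
    w.1.1 (γ * γ') m = Z.ρ γ (w.1.1 γ' (M.ρ γ⁻¹ m)) + w.1.1 γ m := by
  rw [W_cocycle]; rfl

lemma W_one (w : W D M Z) : w.1.1 1 = 0 := by
  have h := W_cocycle w 1 1
  simp only [mul_one, map_one, Module.End.one_apply] at h
  exact left_eq_add.mp h |>.symm ▸ rfl

lemma W_local (w : W D M Z) (v : ι) (d : Γ) (hd : d ∈ D v) (m : M) :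
    w.1.1 d m = Z.ρ d (w.1.2 v (M.ρ d⁻¹ m)) - w.1.2 v m := by
  rw [w.2.2 v d hd]; rfl


/-- The twisted lift `M → coind_{D_v} Z`, `m ↦ (x ↦ (n_v + c x)(x • m))`. -/
noncomputable def lift (w : W D M Z) (v : ι) : M →ₗ[k] CoindZ D Z v where
  toFun m := ⟨fun x => (w.1.2 v + w.1.1 x) (M.ρ x m), fun d x => by
    have hd : (d : Γ) ∈ D v := d.2
    show (w.1.2 v + w.1.1 ((d : Γ) * x)) (M.ρ ((d : Γ) * x) m)
      = Z.ρ (d : Γ) ((w.1.2 v + w.1.1 x) (M.ρ x m))
    have e0 : M.ρ ((d : Γ) * x) m = M.ρ (d : Γ) (M.ρ x m) := by rw [map_mul]; rfl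
    have e1 : M.ρ (d : Γ)⁻¹ (M.ρ (d : Γ) (M.ρ x m)) = M.ρ x m := by
      rw [← Module.End.mul_apply, ← map_mul, inv_mul_cancel, map_one, Module.End.one_apply]
    rw [LinearMap.add_apply, LinearMap.add_apply, W_cocycle_apply, W_local w v d hd, e0, e1,
      map_add]
    abel⟩
  map_add' m m' := by
    ext x
    show (w.1.2 v + w.1.1 x) (M.ρ x (m + m'))
      = (w.1.2 v + w.1.1 x) (M.ρ x m) + (w.1.2 v + w.1.1 x) (M.ρ x m')
    rw [map_add, map_add]
  map_smul' a m := by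
    ext x
    show (w.1.2 v + w.1.1 x) (M.ρ x (a • m)) = a • (w.1.2 v + w.1.1 x) (M.ρ x m)
    rw [map_smul, map_smul]

lemma lift_apply (w : W D M Z) (v : ι) (m : M) (x : Γ) :
    (lift w v m).1 x = w.1.2 v (M.ρ x m) + w.1.1 x (M.ρ x m) := rfl

lemma lift_add (w w' : W D M Z) (v : ι) (m : M) :
    lift (w + w') v m = lift w v m + lift w' v m := by
  apply Subtype.ext
  funext x
  show (lift (w + w') v m).1 x = (lift w v m).1 x + (lift w' v m).1 x
  rw [lift_apply, lift_apply, lift_apply]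
  show (w.1.2 v + w'.1.2 v) (M.ρ x m) + (w.1.1 x + w'.1.1 x) (M.ρ x m) = _
  rw [LinearMap.add_apply, LinearMap.add_apply]
  abel

lemma lift_smul (a : k) (w : W D M Z) (v : ι) (m : M) :
    lift (a • w) v m = a • lift w v m := by
  apply Subtype.ext
  funext x
  show (lift (a • w) v m).1 x = a • (lift w v m).1 x
  rw [lift_apply, lift_apply]
  show (a • w.1.2 v) (M.ρ x m) + (a • w.1.1 x) (M.ρ x m) = _
  rw [LinearMap.smul_apply, LinearMap.smul_apply, smul_add]

/-- Key identity: `lift (γ m) - γ • lift m = - diag (c γ (γ m))`. -/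
lemma lift_rho (w : W D M Z) (v : ι) (γ : Γ) (m : M) :
    lift w v (M.ρ γ m) = (CoindZ D Z v).ρ γ (lift w v m)
      - (diag D Z v).hom (w.1.1 γ (M.ρ γ m)) := by
  ext x
  show (lift w v (M.ρ γ m)).1 x = ((CoindZ D Z v).ρ γ (lift w v m)).1 x
      - ((diag D Z v).hom (w.1.1 γ (M.ρ γ m))).1 x
  rw [CoindZ_ρ_apply, diag_apply, lift_apply, lift_apply, W_cocycle_apply]
  have e1 : M.ρ (x * γ) m = M.ρ x (M.ρ γ m) := by rw [map_mul]; rfl
  have e2 : M.ρ x⁻¹ (M.ρ x (M.ρ γ m)) = M.ρ γ m := by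
    rw [← Module.End.mul_apply, ← map_mul, inv_mul_cancel, map_one, Module.End.one_apply]
  rw [e1, e2]
  abel


variable {I}
variable (α : ∀ v, CoindZ D Z v ⟶ I)

/-- The sum map `⊕_v coind_{D_v} Z → I`. -/
noncomputable def S : (∀ v, CoindZ D Z v) →ₗ[k] I :=
  ∑ v, (α v).hom.toLinearMap ∘ₗ LinearMap.proj v

lemma S_apply (x : ∀ v, CoindZ D Z v) : S α x = ∑ v, (α v).hom (x v) := by
  simp [S, LinearMap.sum_apply]

lemma S_rho (γ : Γ) (x : ∀ v, CoindZ D Z v) :
    S α (fun v => (CoindZ D Z v).ρ γ (x v)) = I.ρ γ (S α x) := by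
  rw [S_apply, S_apply, map_sum]
  exact Finset.sum_congr rfl fun v _ => Rep.hom_comm_apply (α v) γ (x v)

/-- The exactness hypothesis `0 → Z → ⊕_v coind_{D_v} Z → I`. -/
def ExactE : Prop :=
  ∀ x : ∀ v, CoindZ D Z v, S α x = 0 ↔ ∃ z : Z, ∀ v, x v = (diag D Z v).hom z

variable {α}

lemma S_diag (hE : ExactE α) (z : Z) : S α (fun v => (diag D Z v).hom z) = 0 :=
  (hE _).2 ⟨z, fun _ => rfl⟩

/-- The linear map underlying `Ψ w`. -/
noncomputable def PsiLin (α : ∀ v, CoindZ D Z v ⟶ I) (w : W D M Z) : M →ₗ[k] I :=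
  S α ∘ₗ LinearMap.pi (lift w)

lemma PsiLin_apply (w : W D M Z) (m : M) : PsiLin α w m = S α (fun v => lift w v m) := rfl

lemma PsiLin_rho (hE : ExactE α) (w : W D M Z) (γ : Γ) (m : M) :
    PsiLin α w (M.ρ γ m) = I.ρ γ (PsiLin α w m) := by
  rw [PsiLin_apply, PsiLin_apply, ← S_rho]
  have h : (fun v => lift w v (M.ρ γ m))
      = (fun v => (CoindZ D Z v).ρ γ (lift w v m))
        - (fun v => (diag D Z v).hom (w.1.1 γ (M.ρ γ m))) := by
    funext v
    exact lift_rho w v γ m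
  rw [h, map_sub, S_diag hE, sub_zero]

/-- `Ψ : W → Hom_Γ(M, I)`. -/
noncomputable def Psi (hE : ExactE α) : W D M Z →ₗ[k] (M ⟶ I) where
  toFun w := Rep.ofHom (ρ := M.ρ) (σ := I.ρ) ⟨PsiLin α w, fun γ => by
    ext m
    exact PsiLin_rho hE w γ m⟩
  map_add' w w' := by
    ext m
    show PsiLin α (w + w') m = PsiLin α w m + PsiLin α w' m
    simp only [PsiLin_apply, ← map_add]
    congr 1
    funext v
    exact lift_add w w' v m
  map_smul' a w := by
    ext m
    show PsiLin α (a • w) m = a • PsiLin α w m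
    simp only [PsiLin_apply, ← map_smul]
    congr 1
    funext v
    exact lift_smul a w v m

lemma Psi_hom_apply (hE : ExactE α) (w : W D M Z) (m : M) :
    (Psi hE w).hom m = S α (fun v => lift w v m) := rfl


section exactness

variable (D M Z)

/-- Cocycles `Γ → Hom_k(M,Z)` which are coboundaries on every `D v`. -/
def Z1loc : Submodule k (cocycles₁ (N M Z)) where
  carrier := {c | ∀ v, ∃ n : N M Z, ∀ d ∈ D v, c d = (N M Z).ρ d n - n}
  add_mem' := by
    rintro c c' h h' v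
    obtain ⟨n, hn⟩ := h v
    obtain ⟨n', hn'⟩ := h' v
    refine ⟨n + n', fun d hd => ?_⟩
    show c d + c' d = _
    rw [hn d hd, hn' d hd, map_add]; abel
  zero_mem' := fun v => ⟨0, fun d _ => by simp; rfl⟩
  smul_mem' := by
    rintro a c h v
    obtain ⟨n, hn⟩ := h v
    refine ⟨a • n, fun d hd => ?_⟩
    show a • c d = _
    rw [hn d hd, map_smul, smul_sub]

/-- The projection `(c, n) ↦ c`. -/
def pr : W D M Z →ₗ[k] cocycles₁ (N M Z) where
  toFun w := ⟨w.1.1, w.2.1⟩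
  map_add' _ _ := rfl
  map_smul' _ _ := rfl

lemma pr_apply (w : W D M Z) (γ : Γ) : pr D M Z w γ = w.1.1 γ := rfl

lemma range_pr : LinearMap.range (pr D M Z) = Z1loc D M Z := by
  ext c
  constructor
  · rintro ⟨w, rfl⟩ v
    exact ⟨w.1.2 v, fun d hd => w.2.2 v d hd⟩
  · intro hc
    choose n hn using hc
    exact ⟨⟨(c.1, n), c.2, fun v d hd => hn v d hd⟩, rfl⟩

/-- `ν ↦ (∂ν, const ν)`. -/
def kappa : N M Z →ₗ[k] W D M Z where
  toFun ν := ⟨((d₀₁ (N M Z)).hom ν, fun _ => ν),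
    coboundaries₁_le_cocycles₁ _ ⟨ν, rfl⟩, fun v d _ => by
      show (d₀₁ (N M Z)).hom ν d = (N M Z).ρ d ν - ν
      rw [d₀₁_hom_apply]⟩
  map_add' ν ν' := by
    apply Subtype.ext
    simp only [map_add, Submodule.coe_add, Prod.mk_add_mk]
    rfl
  map_smul' a ν := by
    apply Subtype.ext
    simp only [map_smul, Submodule.coe_smul, Prod.smul_mk, RingHom.id_apply]
    rfl

lemma kappa_fst (ν : N M Z) (γ : Γ) : (kappa D M Z ν).1.1 γ = (N M Z).ρ γ ν - ν := by
  show (d₀₁ (N M Z)).hom ν γ = _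
  rw [d₀₁_hom_apply]

lemma kappa_snd (ν : N M Z) (v : ι) : (kappa D M Z ν).1.2 v = ν := rfl

variable {D M Z}

lemma rho_inv_rho (x : Γ) (m : M) : M.ρ x⁻¹ (M.ρ x m) = m := by
  rw [← Module.End.mul_apply, ← map_mul, inv_mul_cancel, map_one, Module.End.one_apply]

lemma rho_rho_inv (x : Γ) (m : M) : M.ρ x (M.ρ x⁻¹ m) = m := by
  rw [← Module.End.mul_apply, ← map_mul, mul_inv_cancel, map_one, Module.End.one_apply]

lemma lift_kappa (ν : N M Z) (v : ι) (m : M) :
    lift (kappa D M Z ν) v m = (diag D Z v).hom (ν m) := by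
  apply Subtype.ext
  funext x
  show (lift _ v m).1 x = ((diag D Z v).hom (ν m)).1 x
  rw [lift_apply, diag_apply, kappa_snd, kappa_fst, LinearMap.sub_apply, N_ρ_apply, rho_inv_rho]
  abel

lemma Psi_kappa (hE : ExactE α) (ν : N M Z) : Psi hE (kappa D M Z ν) = 0 := by
  ext m
  show (Psi hE (kappa D M Z ν)).hom m = 0
  rw [Psi_hom_apply]
  have : (fun v => lift (kappa D M Z ν) v m) = fun v => (diag D Z v).hom (ν m) := by
    funext v
    exact lift_kappa ν v m
  rw [this]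
  exact S_diag hE _

lemma ker_Psi [Nonempty ι] (hE : ExactE α) :
    LinearMap.ker (Psi (M := M) hE) = LinearMap.range (kappa D M Z) := by
  apply le_antisymm
  · intro w hw
    rw [LinearMap.mem_ker] at hw
    have h0 : ∀ m, S α (fun v => lift w v m) = 0 := by
      intro m
      rw [← Psi_hom_apply hE, hw]; rfl
    have hz : ∀ m, ∃ z : Z, ∀ v, lift w v m = (diag D Z v).hom z := fun m => (hE _).1 (h0 m)
    choose z hz using hz
    -- evaluation at `1`
    have h1 : ∀ v m, w.1.2 v m = z m := by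
      intro v m
      have : (lift w v m).1 1 = ((diag D Z v).hom (z m)).1 1 := by rw [hz m v]
      rw [lift_apply, diag_apply, W_one] at this
      simpa using this
    let v₀ : ι := Classical.arbitrary ι
    refine ⟨w.1.2 v₀, ?_⟩
    apply Subtype.ext
    apply Prod.ext
    · funext γ
      apply LinearMap.ext
      intro m'
      show (kappa D M Z (w.1.2 v₀)).1.1 γ m' = w.1.1 γ m'
      rw [kappa_fst, LinearMap.sub_apply, N_ρ_apply]
      have : (lift w v₀ (M.ρ γ⁻¹ m')).1 γ = ((diag D Z v₀).hom (z (M.ρ γ⁻¹ m'))).1 γ := by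
        rw [hz (M.ρ γ⁻¹ m') v₀]
      rw [lift_apply, diag_apply, rho_rho_inv, ← h1 v₀ (M.ρ γ⁻¹ m')] at this
      rw [← this]
      abel
    · funext v
      apply LinearMap.ext
      intro m
      show w.1.2 v₀ m = w.1.2 v m
      rw [h1, h1]
  · rintro _ ⟨ν, rfl⟩
    exact Psi_kappa hE ν

variable (M) (α) in
/-- Morphisms `M ⟶ I` with values in `B := range (⊕_v coind_{D_v} Z → I)`. -/
def HomB : Submodule k (M ⟶ I) where
  carrier := {φ | ∀ m, φ.hom m ∈ LinearMap.range (S α)}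
  add_mem' := by
    intro φ φ' h h' m
    exact (LinearMap.range (S α)).add_mem (h m) (h' m)
  zero_mem' := fun m => (LinearMap.range (S α)).zero_mem
  smul_mem' := by
    intro a φ h m
    exact (LinearMap.range (S α)).smul_mem a (h m)

variable (D Z) in
/-- Evaluation at `x : Γ` on the coinduced module. -/
noncomputable def evalAt (v : ι) (x : Γ) : CoindZ D Z v →ₗ[k] Z :=
  LinearMap.proj x ∘ₗ Submodule.subtype _

lemma evalAt_apply (v : ι) (x : Γ) (f : CoindZ D Z v) : evalAt D Z v x f = f.1 x := rfl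

lemma coind_add_apply (v : ι) (f g : CoindZ D Z v) (x : Γ) : (f + g).1 x = f.1 x + g.1 x := rfl
lemma coind_sub_apply (v : ι) (f g : CoindZ D Z v) (x : Γ) : (f - g).1 x = f.1 x - g.1 x := rfl
lemma coind_smul_apply (v : ι) (a : k) (f : CoindZ D Z v) (x : Γ) : (a • f).1 x = a • f.1 x := rfl

lemma range_Psi [Nonempty ι] (hE : ExactE α) :
    LinearMap.range (Psi (M := M) hE) = HomB M α := by
  apply le_antisymm
  · rintro _ ⟨w, rfl⟩ m
    exact ⟨_, (Psi_hom_apply hE w m).symm⟩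
  · intro φ hφ
    -- a `k`-linear lift of `φ` through `S α`
    obtain ⟨φt, hφt⟩ : ∃ φt : M →ₗ[k] (∀ v, CoindZ D Z v), ∀ m, S α (φt m) = φ.hom m := by
      let φ' : M →ₗ[k] LinearMap.range (S α) :=
        φ.hom.toLinearMap.codRestrict _ (fun m => hφ m)
      obtain ⟨h, hh⟩ := Module.projective_lifting_property (S α).rangeRestrict φ'
        (LinearMap.surjective_rangeRestrict _)
      refine ⟨h, fun m => ?_⟩
      have := congrArg (fun f : M →ₗ[k] LinearMap.range (S α) => ((f m : LinearMap.range (S α)) : I)) hh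
      exact this
    let v₀ : ι := Classical.arbitrary ι
    -- the cocycle
    let c : Γ → (M →ₗ[k] Z) := fun γ =>
      (evalAt D Z v₀ γ ∘ₗ LinearMap.proj v₀ ∘ₗ φt) ∘ₗ (M.ρ γ⁻¹)
        - evalAt D Z v₀ 1 ∘ₗ LinearMap.proj v₀ ∘ₗ φt
    have hc : ∀ γ m, c γ m = (φt (M.ρ γ⁻¹ m) v₀).1 γ - (φt m v₀).1 1 := fun _ _ => rfl
    -- the key identity (★)
    have star : ∀ γ m v x, (φt (M.ρ γ⁻¹ m) v).1 (x * γ) - (φt m v).1 x = Z.ρ x (c γ m) := by
      intro γ m v x
      have hS : S α (fun v => (CoindZ D Z v).ρ γ (φt (M.ρ γ⁻¹ m) v) - φt m v) = 0 := by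
        have : (fun v => (CoindZ D Z v).ρ γ (φt (M.ρ γ⁻¹ m) v) - φt m v)
            = (fun v => (CoindZ D Z v).ρ γ (φt (M.ρ γ⁻¹ m) v)) - φt m := rfl
        rw [this, map_sub, S_rho, hφt, hφt, ← Rep.hom_comm_apply, rho_rho_inv, sub_self]
      obtain ⟨z, hz⟩ := (hE _).1 hS
      have e0 : c γ m = z := by
        have : ((CoindZ D Z v₀).ρ γ (φt (M.ρ γ⁻¹ m) v₀) - φt m v₀).1 1
            = ((diag D Z v₀).hom z).1 1 := by rw [hz v₀]
        rw [coind_sub_apply, CoindZ_ρ_apply, diag_apply, one_mul, map_one,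
          Module.End.one_apply] at this
        rw [hc]; exact this
      have : ((CoindZ D Z v).ρ γ (φt (M.ρ γ⁻¹ m) v) - φt m v).1 x
          = ((diag D Z v).hom z).1 x := by rw [hz v]
      rw [coind_sub_apply, CoindZ_ρ_apply, diag_apply] at this
      rw [e0]; exact this
    let n : ι → (M →ₗ[k] Z) := fun v => evalAt D Z v 1 ∘ₗ LinearMap.proj v ∘ₗ φt
    have hn : ∀ v m, n v m = (φt m v).1 1 := fun _ _ => rfl
    have hcoc : c ∈ cocycles₁ (N M Z) := by
      rw [mem_cocycles₁_iff]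
      intro γ γ'
      apply LinearMap.ext
      intro m
      show c (γ * γ') m = Z.ρ γ (c γ' (M.ρ γ⁻¹ m)) + c γ m
      rw [← star γ' (M.ρ γ⁻¹ m) v₀ γ, hc (γ * γ'), hc γ]
      have e : M.ρ (γ * γ')⁻¹ m = M.ρ γ'⁻¹ (M.ρ γ⁻¹ m) := by
        rw [mul_inv_rev, map_mul]; rfl
      rw [e]; abel
    have hloc : ∀ v, ∀ d ∈ D v, c d = (N M Z).ρ d (n v) - n v := by
      intro v d hd
      apply LinearMap.ext
      intro m
      show c d m = Z.ρ d (n v (M.ρ d⁻¹ m)) - n v m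
      have h1 := star d m v 1
      rw [map_one, Module.End.one_apply, one_mul] at h1
      rw [← h1, hn, hn]
      have h2 := CoindZ_mem D Z v (φt (M.ρ d⁻¹ m) v) d hd 1
      rw [mul_one] at h2
      rw [h2]
    refine ⟨⟨(c, n), hcoc, hloc⟩, ?_⟩
    ext m
    show (Psi hE ⟨(c, n), hcoc, hloc⟩).hom m = φ.hom m
    rw [Psi_hom_apply, ← hφt]
    congr 1
    funext v
    apply Subtype.ext
    funext x
    show (lift ⟨(c, n), hcoc, hloc⟩ v m).1 x = (φt m v).1 x
    rw [lift_apply]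
    show n v (M.ρ x m) + c x (M.ρ x m) = _
    have h1 := star x (M.ρ x m) v 1
    rw [map_one, Module.End.one_apply, one_mul, rho_inv_rho] at h1
    rw [← h1, hn]
    abel

variable (D M Z) in
/-- Families of `D v`-equivariant maps `M → Z`. -/
def locInv : Submodule k (ι → N M Z) where
  carrier := {n | ∀ v, ∀ d ∈ D v, (N M Z).ρ d (n v) = n v}
  add_mem' := by
    intro n n' h h' v d hd
    rw [Pi.add_apply, map_add, h v d hd, h' v d hd]
  zero_mem' := fun v d _ => by simp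
  smul_mem' := by
    intro a n h v d hd
    rw [Pi.smul_apply, map_smul, h v d hd]

variable (D M Z) in
/-- `n ↦ (0, n)`. -/
def inclLoc : locInv D M Z →ₗ[k] W D M Z where
  toFun n := ⟨(0, n.1), (cocycles₁ (N M Z)).zero_mem, fun v d hd => by
    show (0 : N M Z) = _
    rw [n.2 v d hd, sub_self]⟩
  map_add' _ _ := by
    apply Subtype.ext
    simp only [Submodule.coe_add, Prod.mk_add_mk, add_zero]
  map_smul' _ _ := by
    apply Subtype.ext
    simp only [Submodule.coe_smul, Prod.smul_mk, smul_zero, RingHom.id_apply]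

lemma range_inclLoc : LinearMap.range (inclLoc D M Z) = LinearMap.ker (pr D M Z) := by
  ext w
  constructor
  · rintro ⟨n, rfl⟩
    rw [LinearMap.mem_ker]
    apply Subtype.ext
    rfl
  · intro hw
    rw [LinearMap.mem_ker] at hw
    have h0 : w.1.1 = 0 := congrArg Subtype.val hw
    refine ⟨⟨w.1.2, fun v d hd => ?_⟩, ?_⟩
    · have := w.2.2 v d hd
      rw [h0, Pi.zero_apply] at this
      exact (sub_eq_zero.mp this.symm)
    · apply Subtype.ext
      apply Prod.ext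
      · exact h0.symm
      · rfl

/-- The map `⊕_v Hom_{D_v}(M, Z) → Hom_Γ(M, I)` (Frobenius reciprocity composed with `α`). -/
noncomputable def Pmap (hE : ExactE α) : locInv D M Z →ₗ[k] (M ⟶ I) :=
  Psi hE ∘ₗ inclLoc D M Z

lemma Pmap_hom_apply (hE : ExactE α) (n : locInv D M Z) (m : M) :
    (Pmap hE n).hom m = S α (fun v => lift (inclLoc D M Z n) v m) := rfl

lemma lift_inclLoc (n : locInv D M Z) (v : ι) (m : M) (x : Γ) :
    (lift (inclLoc D M Z n) v m).1 x = n.1 v (M.ρ x m) := by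
  rw [lift_apply]
  show n.1 v (M.ρ x m) + (0 : N M Z) (M.ρ x m) = _
  rw [LinearMap.zero_apply, add_zero]

lemma map_ker_pr (hE : ExactE α) :
    (LinearMap.ker (pr D M Z)).map (Psi (M := M) hE) = LinearMap.range (Pmap hE) := by
  rw [← range_inclLoc, Pmap, LinearMap.range_comp]

variable (D M Z) in
/-- `W → H¹(Γ, Hom_k(M,Z))`. -/
noncomputable def deltaW : W D M Z →ₗ[k] H1 (N M Z) :=
  (H1π (N M Z)).hom ∘ₗ pr D M Z

lemma deltaW_kappa (ν : N M Z) : deltaW D M Z (kappa D M Z ν) = 0 := by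
  show (H1π (N M Z)).hom (pr D M Z (kappa D M Z ν)) = 0
  rw [H1π_eq_zero_iff]
  exact ⟨ν, rfl⟩

lemma ker_Psi_le_ker_deltaW [Nonempty ι] (hE : ExactE α) :
    LinearMap.ker (Psi (M := M) hE) ≤ LinearMap.ker (deltaW D M Z) := by
  rw [ker_Psi hE]
  rintro _ ⟨ν, rfl⟩
  exact deltaW_kappa ν

/-- The connecting map `δ : Hom_Γ(M, I)_B → H¹(Γ, Hom_k(M, Z))`. -/
noncomputable def delta [Nonempty ι] (hE : ExactE α) : ↥(HomB M α) →ₗ[k] H1 (N M Z) :=
  ((LinearMap.ker (Psi (M := M) hE)).liftQ (deltaW D M Z) (ker_Psi_le_ker_deltaW hE)) ∘ₗ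
    ((LinearMap.quotKerEquivRange (Psi (M := M) hE)).symm.toLinearMap ∘ₗ
      (LinearEquiv.ofEq _ _ (range_Psi hE).symm).toLinearMap)

lemma delta_Psi [Nonempty ι] (hE : ExactE α) (w : W D M Z) (h : Psi hE w ∈ HomB M α) :
    delta hE ⟨Psi hE w, h⟩ = (H1π (N M Z)).hom (pr D M Z w) := by
  have e : (LinearMap.quotKerEquivRange (Psi (M := M) hE)).symm
      ((LinearEquiv.ofEq _ _ (range_Psi hE).symm) ⟨Psi hE w, h⟩)
      = Submodule.Quotient.mk w := by
    rw [LinearEquiv.symm_apply_eq]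
    apply Subtype.ext
    rfl
  show (LinearMap.ker (Psi (M := M) hE)).liftQ (deltaW D M Z) (ker_Psi_le_ker_deltaW hE)
    ((LinearMap.quotKerEquivRange (Psi (M := M) hE)).symm
      ((LinearEquiv.ofEq _ _ (range_Psi hE).symm) ⟨Psi hE w, h⟩)) = _
  rw [e]
  rfl

lemma Psi_mem_HomB [Nonempty ι] (hE : ExactE α) (w : W D M Z) : Psi hE w ∈ HomB M α := by
  rw [← range_Psi hE]; exact ⟨w, rfl⟩

theorem ker_delta [Nonempty ι] (hE : ExactE α) :
    LinearMap.ker (delta (M := M) hE)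
      = (LinearMap.range (Pmap hE)).comap (HomB M α).subtype := by
  ext ⟨φ, hφ⟩
  rw [LinearMap.mem_ker, Submodule.mem_comap, Submodule.subtype_apply]
  constructor
  · intro h0
    have hφ' := hφ
    rw [← range_Psi hE] at hφ'
    obtain ⟨w, rfl⟩ := hφ'
    rw [delta_Psi, H1π_eq_zero_iff] at h0
    obtain ⟨ν, hν⟩ := h0
    rw [← map_ker_pr hE]
    refine ⟨w - kappa D M Z ν, ?_, ?_⟩
    · rw [SetLike.mem_coe, LinearMap.mem_ker, map_sub, sub_eq_zero]
      apply Subtype.ext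
      exact hν.symm
    · rw [map_sub, Psi_kappa hE, sub_zero]
  · rintro ⟨n, rfl⟩
    have h2 : Psi hE (inclLoc D M Z n) ∈ HomB M α := hφ
    have e : (⟨Pmap hE n, hφ⟩ : ↥(HomB M α)) = ⟨Psi hE (inclLoc D M Z n), h2⟩ := rfl
    rw [e, delta_Psi]
    have : pr D M Z (inclLoc D M Z n) = 0 := by
      apply Subtype.ext; rfl
    rw [this, map_zero]

theorem range_delta [Nonempty ι] (hE : ExactE α) :
    LinearMap.range (delta (M := M) hE) = (Z1loc D M Z).map (H1π (N M Z)).hom := by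
  apply le_antisymm
  · rintro _ ⟨⟨φ, hφ⟩, rfl⟩
    have hφ' := hφ
    rw [← range_Psi hE] at hφ'
    obtain ⟨w, rfl⟩ := hφ'
    rw [delta_Psi]
    refine ⟨pr D M Z w, ?_, rfl⟩
    rw [SetLike.mem_coe, ← range_pr]
    exact ⟨w, rfl⟩
  · rintro _ ⟨c, hc, rfl⟩
    rw [SetLike.mem_coe, ← range_pr] at hc
    obtain ⟨w, rfl⟩ := hc
    exact ⟨⟨Psi hE w, Psi_mem_HomB hE w⟩, delta_Psi hE w _⟩

variable (D M Z) in
/-- The finite-level `Ш¹`: classes in `H¹(Γ, Hom_k(M,Z))` which are trivial on every `D v`. -/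
noncomputable def sha1Fin : Submodule k (H1 (N M Z)) :=
  (Z1loc D M Z).map (H1π (N M Z)).hom

lemma mem_sha1Fin_iff (x : H1 (N M Z)) :
    x ∈ sha1Fin D M Z ↔ ∃ c : cocycles₁ (N M Z),
      (∀ v, ∃ n : N M Z, ∀ d ∈ D v, c d = (N M Z).ρ d n - n) ∧ (H1π (N M Z)).hom c = x :=
  Iff.rfl

/-- **Formal Poitou-Tate at a finite level**: the cokernel of
`⊕_v Hom_{D_v}(M,Z) → Hom_Γ(M,I)_B` is the finite-level `Ш¹`. -/
noncomputable def quotEquiv [Nonempty ι] (hE : ExactE α) :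
    (↥(HomB M α) ⧸ (LinearMap.range (Pmap hE)).comap (HomB M α).subtype)
      ≃ₗ[k] ↥(sha1Fin D M Z) :=
  (Submodule.quotEquivOfEq _ _ (ker_delta hE).symm) ≪≫ₗ
    (LinearMap.quotKerEquivRange (delta (M := M) hE)) ≪≫ₗ
      (LinearEquiv.ofEq _ _ (range_delta hE))

/-- Under the hypothesis (F) that every morphism `M ⟶ I` has values in `B`, the connecting map is
defined on all of `Hom_Γ(M, I)`, with kernel `range Pmap` and range `sha1Fin`. -/
theorem exists_delta_of_top [Nonempty ι] (hE : ExactE α) (hF : HomB M α = ⊤) :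
    ∃ δ : (M ⟶ I) →ₗ[k] H1 (N M Z),
      LinearMap.ker δ = LinearMap.range (Pmap hE) ∧ LinearMap.range δ = sha1Fin D M Z ∧
      ∀ w : W D M Z, δ (Psi hE w) = (H1π (N M Z)).hom (pr D M Z w) := by
  let e : (M ⟶ I) ≃ₗ[k] ↥(HomB M α) :=
    (LinearEquiv.ofTop (⊤ : Submodule k (M ⟶ I)) rfl).symm ≪≫ₗ (LinearEquiv.ofEq _ _ hF.symm)
  have he : ∀ φ, ((e φ : ↥(HomB M α)) : M ⟶ I) = φ := fun φ => rfl
  refine ⟨delta hE ∘ₗ e.toLinearMap, ?_, ?_, ?_⟩
  · ext φ
    rw [LinearMap.mem_ker, LinearMap.comp_apply, ← LinearMap.mem_ker, ker_delta hE,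
      Submodule.mem_comap]
    rfl
  · rw [LinearMap.range_comp_of_range_eq_top _ (LinearEquiv.range e), range_delta hE]
    rfl
  · intro w
    rw [LinearMap.comp_apply]
    exact delta_Psi hE w _

end exactness

end Fermat.Agent.S55.EW55.FormalPT
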