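/-
S55 / route R3, variant W55 (helper55): the INTERFACE between the per-level analysis
(`EW55/{Inst,Global,Count}`) and the final stabilisation (T6).

`LevelData S V hμ` packages, for a level `V` trivialising `μ_p` and `Γ = G_ℚ ⧸ V`:
the dualizing module `I` of `Γ`, the maps `α_q : coind_{D_q} μ ⟶ I` with hypothesis (E) of
`FormalPT`, finiteness of `Hom_Γ(N, I)`, the COUNT
`dim sha₂ S M = dim sha1Fin_V(M, μ) + dim (Hom_Γ(M_V, I) / HomB)`,
and the persistence of `HomB = ⊤` from the permutation module `𝔽_p[G/U₀]` to all modules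
trivialised by `U₀`.
-/
import Fermat.Agent.S55.EW55.Inst
import Fermat.Agent.S55.EW55.FormalPT

set_option autoImplicit false

open CategoryTheory Module groupCohomology ExtCitation
open Fermat.Agent.S55.Profin15
open Fermat.Agent.Lib.FrobeniusExists (Qb GQ)
open Fermat.Agent.S55.Contract34
open Fermat.Agent.S55.ProfinLocal31

noncomputable section

namespace Fermat.Agent.S55.EW55.LevelData

open Fermat.Agent.S55.EW55.Inst Fermat.Agent.S55.EW55.FormalPT

variable {p : ℕ} [Fact p.Prime] (S : Finset Nat.Primes) (V : Subgroup GQ) [V.Normal]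

/-- the decomposition groups of `Γ = G_ℚ ⧸ V` at the places of `S` -/
abbrev DS : ↥S → Subgroup (GQ ⧸ V) := fun q => D V q.1

/-- a normal subgroup `V ≤ U₀` acts trivially on `𝔽_p[G/U₀]` -/
lemma le_ker_perm {U₀ : Subgroup GQ} (hVU : V ≤ U₀) : V ≤ (perm p U₀).ρ.ker := by
  intro g hg
  rw [MonoidHom.mem_ker]
  apply LinearMap.ext
  intro a
  induction a using MonoidAlgebra.induction_linear with
  | zero => simp
  | add x y hx hy => rw [map_add, hx, hy, map_add]
  | single x r =>
    show Representation.ofMulAction _ _ _ g (MonoidAlgebra.single x r) = MonoidAlgebra.single x r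
    rw [Representation.ofMulAction_single]
    congr 1
    induction x using QuotientGroup.induction_on with
    | H y =>
      show ((g * y : GQ) : GQ ⧸ U₀) = (y : GQ ⧸ U₀)
      rw [QuotientGroup.eq]
      have : (g * y)⁻¹ * y = y⁻¹ * g⁻¹ * y := by group
      rw [this]
      have h1 : y⁻¹ * g⁻¹ * y ∈ V := by
        have := (inferInstance : V.Normal).conj_mem g⁻¹ (V.inv_mem hg) y⁻¹
        simpa using this
      exact hVU h1

variable (hμ : V ≤ (mu p).ρ.ker)

/-- **The output of the analysis at the level `V`.** -/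
structure Data where
  /-- the dualizing module of `Γ` -/
  I : Rep.{0} (ZMod p) (GQ ⧸ V)
  /-- the maps `coind_{D_q} μ ⟶ I` -/
  α : ∀ q : ↥S, CoindZ (DS S V) (muV V hμ) q ⟶ I
  /-- hypothesis (E) of `FormalPT` -/
  hE : ExactE α
  /-- `Hom_Γ(N, I)` is finite-dimensional -/
  finite_hom : ∀ (N : Rep.{0} (ZMod p) (GQ ⧸ V)) [Module.Finite (ZMod p) N],
    Module.Finite (ZMod p) (N ⟶ I)
  /-- the count at the level `V` -/
  count : ∀ (M : Rep.{0} (ZMod p) GQ) [FiniteDimensional (ZMod p) M] (hM : V ≤ M.ρ.ker),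
    FiniteDimensional (ZMod p) (sha₂ S M) ∧
    finrank (ZMod p) (sha₂ S M) =
      finrank (ZMod p) ↥(sha1Fin (DS S V) (LevelModel.levelRep M V hM) (muV V hμ)) +
      finrank (ZMod p) ((LevelModel.levelRep M V hM ⟶ I) ⧸ HomB (LevelModel.levelRep M V hM) α)
  /-- persistence of (F) -/
  persist : ∀ (U₀ : Subgroup GQ) (hVU : V ≤ U₀),
    HomB (LevelModel.levelRep (perm p U₀) V (le_ker_perm V hVU)) α = ⊤ →
    ∀ (M : Rep.{0} (ZMod p) GQ) [FiniteDimensional (ZMod p) M] (hM : U₀ ≤ M.ρ.ker),
      HomB (LevelModel.levelRep M V (hVU.trans hM)) α = ⊤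

/-- The statement delivered by `EW55/Count.lean`: the per-level data exist for every level
trivialising `μ_p`, given the plugs. -/
def Statement (p : ℕ) [Fact p.Prime] (S : Finset Nat.Primes) : Prop :=
  ∀ (V : Subgroup GQ) (hV : V ∈ (globalLevels S).levels) (hμ : V ≤ (mu p).ρ.ker),
    haveI := (globalLevels S).normal V hV
    Nonempty (Data S V hμ)

end Fermat.Agent.S55.EW55.LevelData
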