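/-
S55 / route R3, variant W55 (helper55): step (ii) of the blueprint at a finite level.

* generic: Frobenius reciprocity for `FormalPT.CoindZ` (`ev`, `frob`, `frob_ev`), and
  `Pmap_eq_sum`: `FormalPT.Pmap hE n = ∑ v, frob v (n v) ≫ α v`;
* instance: `alphaQ : coind_{D_q} μ ⟶ (TS S V).I`, the KEY FORMULA
  `(TS S V).Phi M (aq q M ψ) = frob q ψ ≫ alphaQ q`, and hypothesis (E) of `FormalPT`
  (`exactE_alphaQ`) from reciprocity (P3P4), injectivity of the local pairing maps and (P6).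
-/
import Fermat.Agent.S55.EW55.Inst
import Fermat.Agent.S55.EW55.LevelData
import Fermat.Agent.S55.FormalTop65.KerInj

set_option autoImplicit false
set_option linter.unusedSectionVars false
set_option linter.unusedVariables false
set_option linter.style.haveILetI false

open CategoryTheory Module groupCohomology ExtCitation
open Fermat.Agent.S55.Profin15
open Fermat.Agent.Lib.FrobeniusExists (Qb GQ)
open Fermat.Agent.S55.Contract34
open Fermat.Agent.S55.Profin15.Plug
open Fermat.Agent.S55.ProfinLocal31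

noncomputable section

namespace Fermat.Agent.S55.EW55.Global

open Fermat.Agent.S55.EW55.FormalPT

/-! ### Generic: Frobenius reciprocity for `CoindZ` -/

section Generic

variable {k : Type} [Field k] {Γ : Type} [Group Γ] {ι : Type} [Fintype ι]
variable (D : ι → Subgroup Γ) (Z : Rep.{0} k Γ)

lemma sum_hom_apply {A B : Rep.{0} k Γ} {ι' : Type*} (s : Finset ι') (f : ι' → (A ⟶ B))
    (a : A) : (∑ i ∈ s, f i).hom a = ∑ i ∈ s, (f i).hom a := by
  classical
  induction s using Finset.induction_on with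
  | empty =>
    rw [Finset.sum_empty, Finset.sum_empty]
    rfl
  | insert i s hi ih =>
    rw [Finset.sum_insert hi, Finset.sum_insert hi, ← ih]
    rfl

/-- the counit `res_{D_v} coind_{D_v} Z ⟶ res_{D_v} Z`, `f ↦ f 1` -/
def ev (v : ι) : Rep.res (D v).subtype (CoindZ D Z v) ⟶ Rep.res (D v).subtype Z :=
  Rep.ofHom (ρ := (Rep.res (D v).subtype (CoindZ D Z v)).ρ) (σ := (Rep.res (D v).subtype Z).ρ)
    ⟨{ toFun := fun f => f.1 1
       map_add' := fun _ _ => rfl
       map_smul' := fun _ _ => rfl }, fun d => by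
      ext f
      show ((CoindZ D Z v).ρ (d : Γ) f).1 1 = Z.ρ (d : Γ) (f.1 1)
      rw [CoindZ_ρ_apply, one_mul, ← CoindZ_mem D Z v f d d.2 1, mul_one]⟩

lemma ev_hom_apply (v : ι) (f : CoindZ D Z v) : (ev D Z v).hom f = f.1 1 := rfl

variable {D Z}

/-- Frobenius reciprocity: a `D_v`-map `M → Z` gives a `Γ`-map `M → coind_{D_v} Z`,
`m ↦ (x ↦ ψ (x • m))`. -/
def frob {M : Rep.{0} k Γ} (v : ι)
    (ψ : Rep.res (D v).subtype M ⟶ Rep.res (D v).subtype Z) : M ⟶ CoindZ D Z v :=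
  Rep.ofHom (ρ := M.ρ) (σ := Representation.coind (D v).subtype (Rep.res (D v).subtype Z).ρ)
    ⟨{ toFun := fun m => ⟨fun x => ψ.hom (M.ρ x m), fun d x => by
          show ψ.hom (M.ρ ((d : Γ) * x) m) = Z.ρ (d : Γ) (ψ.hom (M.ρ x m))
          have e0 : M.ρ ((d : Γ) * x) m = M.ρ (d : Γ) (M.ρ x m) := by rw [map_mul]; rfl
          rw [e0]
          exact Rep.hom_comm_apply ψ d (M.ρ x m)⟩
       map_add' := fun m m' => by
        ext x
        show ψ.hom (M.ρ x (m + m')) = ψ.hom (M.ρ x m) + ψ.hom (M.ρ x m')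
        rw [map_add, map_add]
       map_smul' := fun a m => by
        ext x
        show ψ.hom (M.ρ x (a • m)) = a • ψ.hom (M.ρ x m)
        rw [map_smul, map_smul] }, fun γ => by
      ext m x
      show ψ.hom (M.ρ x (M.ρ γ m)) = ψ.hom (M.ρ (x * γ) m)
      rw [map_mul]; rfl⟩

lemma frob_hom_apply {M : Rep.{0} k Γ} (v : ι)
    (ψ : Rep.res (D v).subtype M ⟶ Rep.res (D v).subtype Z) (m : M) (x : Γ) :
    ((frob v ψ).hom m).1 x = ψ.hom (M.ρ x m) := rfl

lemma frob_ev {M : Rep.{0} k Γ} (v : ι)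
    (ψ : Rep.res (D v).subtype M ⟶ Rep.res (D v).subtype Z) :
    (Rep.resFunctor (D v).subtype).map (frob v ψ) ≫ ev D Z v = ψ := by
  ext m
  show ψ.hom (M.ρ 1 m) = ψ.hom m
  rw [map_one]; rfl

lemma frob_id (v : ι) : frob v (𝟙 (Rep.res (D v).subtype Z)) = diag D Z v := by
  ext z x
  rfl

/-- on the regular representation, `frob` evaluated at `1` inverts `coindEquiv` -/
lemma frob_single_one (v : ι)
    (n : Rep.res (D v).subtype (Rep.leftRegular k Γ) ⟶ Rep.res (D v).subtype Z) :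
    (frob v n).hom (MonoidAlgebra.single 1 1) =
      (Fermat.Agent.S55.FormalTop65.coindEquiv D Z v).symm n := by
  ext x
  rw [frob_hom_apply, Fermat.Agent.S55.FormalTop65.coindEquiv_symm_apply]
  congr 1
  show Representation.ofMulAction k Γ Γ x (MonoidAlgebra.single 1 1) = MonoidAlgebra.single x 1
  rw [Representation.ofMulAction_single, smul_eq_mul, mul_one]

/-- the `D_v`-morphism underlying a component of an element of `locInv` -/
def homOf {M : Rep.{0} k Γ} (n : locInv D M Z) (v : ι) :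
    Rep.res (D v).subtype M ⟶ Rep.res (D v).subtype Z :=
  Rep.ofHom (ρ := (Rep.res (D v).subtype M).ρ) (σ := (Rep.res (D v).subtype Z).ρ)
    ⟨n.1 v, fun d => by
      ext m
      show n.1 v (M.ρ (d : Γ) m) = Z.ρ (d : Γ) (n.1 v m)
      have h := n.2 v (d : Γ) d.2
      have h2 := LinearMap.congr_fun h (M.ρ (d : Γ) m)
      rw [N_ρ_apply, rho_inv_rho] at h2
      exact h2.symm⟩

lemma homOf_hom_apply {M : Rep.{0} k Γ} (n : locInv D M Z) (v : ι) (m : M) :
    (homOf n v).hom m = n.1 v m := rfl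

/-- every family of `D_v`-morphisms comes from `locInv` -/
def ofHoms {M : Rep.{0} k Γ}
    (ψ : ∀ v, Rep.res (D v).subtype M ⟶ Rep.res (D v).subtype Z) : locInv D M Z :=
  ⟨fun v => (ψ v).hom.toLinearMap, fun v d hd => by
    apply LinearMap.ext
    intro m
    rw [N_ρ_apply]
    have h := Rep.hom_comm_apply (ψ v) ⟨d, hd⟩ (M.ρ d⁻¹ m)
    have h' : (ψ v).hom (M.ρ d (M.ρ d⁻¹ m)) = Z.ρ d ((ψ v).hom (M.ρ d⁻¹ m)) := h
    rw [rho_rho_inv] at h'
    exact h'.symm⟩

lemma homOf_ofHoms {M : Rep.{0} k Γ}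
    (ψ : ∀ v, Rep.res (D v).subtype M ⟶ Rep.res (D v).subtype Z) (v : ι) :
    homOf (ofHoms ψ) v = ψ v := by
  ext m
  rfl

variable {I : Rep.{0} k Γ} {α : ∀ v, CoindZ D Z v ⟶ I}

/-- **`Pmap` in terms of Frobenius reciprocity.** -/
theorem Pmap_eq_sum {M : Rep.{0} k Γ} (hE : ExactE α) (n : locInv D M Z) :
    Pmap hE n = ∑ v, frob v (homOf n v) ≫ α v := by
  ext m
  show (Pmap hE n).hom m = (∑ v, frob v (homOf n v) ≫ α v : M ⟶ I).hom m
  rw [Pmap_hom_apply, S_apply]
  have : ((∑ v, frob v (homOf n v) ≫ α v : M ⟶ I)).hom m =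
      ∑ v, (α v).hom ((frob v (homOf n v)).hom m) := by
    rw [sum_hom_apply]
    rfl
  rw [this]
  refine Finset.sum_congr rfl fun v _ => ?_
  congr 1
  ext x
  rw [lift_inclLoc, frob_hom_apply, homOf_hom_apply]

end Generic

/-! ### The instance: `alphaQ`, the key formula, hypothesis (E) -/

section Instance

open Fermat.Agent.S55.EW55.Inst Fermat.Agent.S55.EW55.LevelData

variable {p : ℕ} [Fact p.Prime] (S : Finset Nat.Primes) (V : Subgroup GQ) [V.Normal]
variable (hμ : V ≤ (mu p).ρ.ker)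
variable (lam : ∀ q : ↥S, (pullLevels (primeLocalToGlobal q.1)).H2
      (Rep.res (primeLocalToGlobal q.1) (mu p)) →ₗ[ZMod p] ZMod p)

/-- **the maps** `α_q : coind_{D_q} μ ⟶ I`, by Yoneda from `aq`. -/
def alphaQ (q : ↥S) : CoindZ (DS S V) (muV V hμ) q ⟶ (TS (p := p) S V).I :=
  (TS (p := p) S V).Phi _
    (aq S V hμ lam q (CoindZ (DS S V) (muV V hμ) q) (ev (DS S V) (muV V hμ) q))

/-- **KEY FORMULA**: under Eilenberg–Watts, `aq q M ψ` corresponds to `frob ψ ≫ α_q`. -/
theorem key_formula (q : ↥S) (M : Rep.{0} (ZMod p) (GQ ⧸ V))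
    (ψ : Rep.res (D V q.1).subtype M ⟶ muQ V hμ q.1) :
    (TS (p := p) S V).Phi M (aq S V hμ lam q M ψ) =
      frob (D := DS S V) (Z := muV V hμ) q ψ ≫ alphaQ S V hμ lam q := by
  rw [alphaQ, ← DualFun.Phi_natural, ← aq_natural]
  congr 2
  exact (frob_ev (D := DS S V) (Z := muV V hμ) q ψ).symm

/-- `α_q` in terms of `aq` on the regular representation -/
lemma alphaQ_hom_apply (q : ↥S) (f : CoindZ (DS S V) (muV V hμ) q) :
    (alphaQ S V hμ lam q).hom f =
      aq S V hμ lam q (Rep.leftRegular (ZMod p) (GQ ⧸ V))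
        (Fermat.Agent.S55.FormalTop65.coindEquiv (DS S V) (muV V hμ) q f) := by
  set n := Fermat.Agent.S55.FormalTop65.coindEquiv (DS S V) (muV V hμ) q f with hn
  have h := key_formula S V hμ lam q (Rep.leftRegular (ZMod p) (GQ ⧸ V)) n
  have h2 := congrArg (fun φ : Rep.leftRegular (ZMod p) (GQ ⧸ V) ⟶ (TS (p := p) S V).I =>
    φ.hom (MonoidAlgebra.single 1 1)) h
  simp only at h2
  rw [DualFun.Phi_hom_apply, leftRegularHom_single, rmul_one, one_smul,
    DualFun.map_id_apply] at h2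
  rw [h2]
  show (alphaQ S V hμ lam q).hom f = (alphaQ S V hμ lam q).hom
    ((frob (D := DS S V) (Z := muV V hμ) q n).hom (MonoidAlgebra.single 1 1))
  rw [frob_single_one, hn, LinearEquiv.symm_apply_apply]

/-- the identity `infl μ_V → μ_p` -/
def idZ : Rep.res (QuotientGroup.mk' V) (muV V hμ) →ₗ[ZMod p] mu p := LinearMap.id

lemma idZ_equivariant : LevelStr.IsEquivariant (idZ V hμ) := fun _ _ => rfl

/-- `aq` as a functional on `H²` -/
def aqD (q : ↥S) (M : Rep.{0} (ZMod p) (GQ ⧸ V))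
    (φ : Rep.res (D V q.1).subtype M ⟶ muQ V hμ q.1) :
    Module.Dual (ZMod p) ((globalLevels S).H2 (Rep.res (QuotientGroup.mk' V) M)) :=
  aq S V hμ lam q M φ

lemma aqD_apply (q : ↥S) (M : Rep.{0} (ZMod p) (GQ ⧸ V))
    (φ : Rep.res (D V q.1).subtype M ⟶ muQ V hμ q.1)
    (y : (globalLevels S).H2 (Rep.res (QuotientGroup.mk' V) M)) :
    aqD S V hμ lam q M φ y =
      lamV S V hμ lam q (H2res (pullLevels (primeLocalToGlobal q.1)) (piQ V q.1) φ
        (locM S V q M y)) := rfl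

/-- reciprocity, transported to the level `V` (in `Module.Dual`) -/
lemma sum_aq_id_eq_zero'
    (hrec : ∀ x : (globalLevels S).H2 (mu p), ∑ q : ↥S, lam q (locq p S q.1 (mu p) x) = 0) :
    (∑ q : ↥S, aqD S V hμ lam q (muV V hμ) (𝟙 (muQ V hμ q.1))) = 0 := by
  refine LinearMap.ext fun y => ?_
  rw [LinearMap.sum_apply, LinearMap.zero_apply]
  rw [← hrec ((globalLevels S).H2map (idZ V hμ) (idZ_equivariant V hμ) y)]
  refine Finset.sum_congr rfl fun q _ => ?_
  obtain ⟨c, rfl⟩ := Submodule.mkQ_surjective _ y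
  rfl

/-- reciprocity, transported to the level `V` -/
lemma sum_aq_id_eq_zero
    (hrec : ∀ x : (globalLevels S).H2 (mu p), ∑ q : ↥S, lam q (locq p S q.1 (mu p) x) = 0) :
    ∑ q : ↥S, aq S V hμ lam q (muV V hμ) (𝟙 (muQ V hμ q.1)) = 0 :=
  sum_aq_id_eq_zero' S V hμ lam hrec

/-- the diagonal is killed by `S α` -/
lemma S_alphaQ_diag
    (hrec : ∀ x : (globalLevels S).H2 (mu p), ∑ q : ↥S, lam q (locq p S q.1 (mu p) x) = 0)
    (z : muV V hμ) :
    FormalPT.S (alphaQ S V hμ lam) (fun v => (diag (DS S V) (muV V hμ) v).hom z) = 0 := by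
  rw [S_apply]
  have h1 : ∀ q : ↥S, diag (DS S V) (muV V hμ) q ≫ alphaQ S V hμ lam q =
      (TS (p := p) S V).Phi (muV V hμ) (aq S V hμ lam q (muV V hμ) (𝟙 (muQ V hμ q.1))) := by
    intro q
    rw [key_formula, frob_id]
  have h2 : (∑ q : ↥S, diag (DS S V) (muV V hμ) q ≫ alphaQ S V hμ lam q) = 0 := by
    simp only [h1]
    rw [← map_sum, sum_aq_id_eq_zero S V hμ lam hrec, map_zero]
  have h3 := congrArg (fun φ : muV V hμ ⟶ (TS (p := p) S V).I => φ.hom z) h2
  simp only at h3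
  rw [sum_hom_apply] at h3
  exact h3

/-- `H²(G_S, infl k[Γ])` -/
abbrev HR : Type := (globalLevels S).H2
  (Rep.res (QuotientGroup.mk' V) (Rep.leftRegular (ZMod p) (GQ ⧸ V)))

/-- `H²(G_q, infl res k[Γ])` -/
abbrev PR (q : ↥S) : Type := (pullLevels (primeLocalToGlobal q.1)).H2
  (Rep.res (piQ V q.1) (Rep.res (D V q.1).subtype (Rep.leftRegular (ZMod p) (GQ ⧸ V))))

/-- the carrier of the dualizing module is the dual of `HR` -/
def JI : Module.Dual (ZMod p) (HR (p := p) S V) →ₗ[ZMod p] ((TS (p := p) S V).I) :=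
  LinearMap.id

lemma JI_injective : Function.Injective (JI (p := p) S V) := fun _ _ h => h

/-- the localisation maps on `k[Γ]` -/
def LR (q : ↥S) : HR (p := p) S V →ₗ[ZMod p] PR (p := p) S V q :=
  locM S V q (Rep.leftRegular (ZMod p) (GQ ⧸ V))

/-- `coind_{D_q} μ → H²(G_q, infl res k[Γ])^*` -/
def EQ (q : ↥S) : CoindZ (DS S V) (muV V hμ) q →ₗ[ZMod p] Module.Dual (ZMod p) (PR (p := p) S V q) :=
  (psi S V hμ lam q (Rep.res (D V q.1).subtype (Rep.leftRegular (ZMod p) (GQ ⧸ V)))) ∘ₗ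
    (Fermat.Agent.S55.FormalTop65.coindEquiv (DS S V) (muV V hμ) q).toLinearMap

lemma alphaQ_hom_eq (q : ↥S) (f : CoindZ (DS S V) (muV V hμ) q) :
    (alphaQ S V hμ lam q).hom f = JI S V ((LR S V q).dualMap (EQ S V hμ lam q f)) := by
  rw [alphaQ_hom_apply]
  rfl

lemma S_alphaQ_eq (x : ∀ v, CoindZ (DS S V) (muV V hμ) v) :
    FormalPT.S (alphaQ S V hμ lam) x =
      JI S V (∑ q : ↥S, (LR S V q).dualMap (EQ S V hμ lam q (x q))) := by
  rw [S_apply, map_sum]
  exact Finset.sum_congr rfl fun q _ => alphaQ_hom_eq S V hμ lam q (x q)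

/-- **Hypothesis (E) of `FormalPT` for the maps `alphaQ`**, from reciprocity (P3P4), injectivity
of the local pairing maps on `res k[Γ]` and the dimension inequality (P6) at the level `V`. -/
theorem exactE_alphaQ [Nonempty ↥S] [Finite (GQ ⧸ V)]
    [∀ q : ↥S, Module.Finite (ZMod p) (PR (p := p) S V q)]
    (hrec : ∀ x : (globalLevels S).H2 (mu p), ∑ q : ↥S, lam q (locq p S q.1 (mu p) x) = 0)
    (hinj : ∀ q : ↥S, Function.Injective
      (psi S V hμ lam q (Rep.res (D V q.1).subtype (Rep.leftRegular (ZMod p) (GQ ⧸ V)))))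
    (hdim : ∑ q : ↥S, finrank (ZMod p) (PR (p := p) S V q) ≤
      finrank (ZMod p) (LinearMap.range (LinearMap.pi fun q : ↥S => LR (p := p) S V q)) + 1) :
    ExactE (alphaQ S V hμ lam) := by
  have hZ : finrank (ZMod p) (muV V hμ) = 1 := by
    show finrank (ZMod p) (ZMod p) = 1
    exact Module.finrank_self _
  have hEinj : ∀ q : ↥S, Function.Injective (EQ S V hμ lam q) := fun q =>
    (hinj q).comp (LinearEquiv.injective _)
  exact Fermat.Agent.S55.FormalTop65.exactE_of_dual_sum (H := HR (p := p) S V)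
    (P := fun q : ↥S => PR (p := p) S V q) (alphaQ S V hμ lam)
    (JI S V) (JI_injective S V) (fun q : ↥S => LR S V q) (fun q : ↥S => EQ S V hμ lam q) hEinj
    (S_alphaQ_eq S V hμ lam) (S_alphaQ_diag S V hμ lam hrec) hZ hdim

end Instance

end Fermat.Agent.S55.EW55.Global
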