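/-
S55 / route R3, variant W55 (helper55): LOCAL DUALITY at a finite level (step (i) of the
blueprint) for the maps `Inst.psi`, as an adapter of helper26's `LocDual26.Plugs`
(`local_duality_of_plugs`: bijectivity of `theta` from the literal plugs (P2), (P5), `lam ≠ 0`).
-/
import Fermat.Agent.S55.EW55.Inst
import Fermat.Agent.S55.LocDual26.Plugs

set_option autoImplicit false
set_option linter.unusedSectionVars false
set_option linter.unusedVariables false
set_option linter.style.haveILetI false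

open CategoryTheory Module groupCohomology ExtCitation
open Fermat.Agent.S55.Profin15
open Fermat.Agent.Lib.FrobeniusExists (Qb GQ)
open Fermat.Agent.S55.Contract34
open Fermat.Agent.S55.ProfinLocal31

noncomputable section

namespace Fermat.Agent.S55.EW55.LocDualInst

open Fermat.Agent.S55.EW55.Inst

variable {p : ℕ} [Fact p.Prime] (S : Finset Nat.Primes) (V : Subgroup GQ) [V.Normal]
variable (hμ : V ≤ (mu p).ρ.ker)
variable (lam : ∀ q : ↥S, (pullLevels (primeLocalToGlobal q.1)).H2
      (Rep.res (primeLocalToGlobal q.1) (mu p)) →ₗ[ZMod p] ZMod p)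

/-- `Hom_{D_q}(N, μ_q) → Hom_{G_q}(infl N, res μ_p)` -/
def toEq (q : ↥S) (N : Rep.{0} (ZMod p) ↥(D V q.1)) :
    (N ⟶ muQ V hμ q.1) →ₗ[ZMod p]
      ↥(Dualizing59.eqHom (Rep.res (piQ V q.1) N) (Rep.res (primeLocalToGlobal q.1) (mu p))) where
  toFun φ := ⟨idMu V hμ q.1 ∘ₗ LevelStr.resLin (piQ V q.1) φ.hom.toLinearMap, fun g a =>
    Rep.hom_comm_apply φ (piQ V q.1 g) a⟩
  map_add' φ φ' := rfl
  map_smul' a φ := rfl

lemma toEq_apply (q : ↥S) (N : Rep.{0} (ZMod p) ↥(D V q.1)) (φ : N ⟶ muQ V hμ q.1) (n : N) :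
    (toEq S V hμ q N φ).1 n = φ.hom n := rfl

lemma toEq_bijective (q : ↥S) (N : Rep.{0} (ZMod p) ↥(D V q.1)) :
    Function.Bijective (toEq S V hμ q N) := by
  constructor
  · intro φ φ' h
    ext n
    have := congrArg (fun ψ : ↥(Dualizing59.eqHom (Rep.res (piQ V q.1) N)
      (Rep.res (primeLocalToGlobal q.1) (mu p))) => ψ.1 n) h
    exact this
  · intro ψ
    refine ⟨Rep.ofHom (ρ := N.ρ) (σ := (muQ V hμ q.1).ρ) ⟨ψ.1, fun d => ?_⟩, ?_⟩
    · obtain ⟨g, rfl⟩ := piQ_surjective V q.1 d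
      apply LinearMap.ext
      intro a
      exact ψ.2 g a
    · apply Subtype.ext
      rfl

/-- `psi` is `theta` of `Dualizing59`, read through `toEq`. -/
lemma psi_eq_theta (q : ↥S) (N : Rep.{0} (ZMod p) ↥(D V q.1)) (φ : N ⟶ muQ V hμ q.1) :
    psi S V hμ lam q N φ =
      Dualizing59.theta (pullLevels (primeLocalToGlobal q.1))
        (Rep.res (primeLocalToGlobal q.1) (mu p)) (lam q) (Rep.res (piQ V q.1) N)
        (toEq S V hμ q N φ) := by
  refine LinearMap.ext fun x => ?_
  obtain ⟨c, rfl⟩ := Submodule.mkQ_surjective _ x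
  rfl

/-- **Local duality at the level `V`** (from the literal plugs (P2), (P5) and `lam q ≠ 0`). -/
theorem psi_bijective (hV : V ∈ (globalLevels S).levels) (hpS : pPrime p ∈ S) (q : ↥S)
    (hP2 : Contract34.LocalRightExact p q.1) (hP5 : Contract34.LocalDim p S)
    (hlam : lam q ≠ 0) (N : Rep.{0} (ZMod p) ↥(D V q.1)) [Module.Finite (ZMod p) N] :
    Function.Bijective (psi S V hμ lam q N) := by
  haveI : Module.Finite (ZMod p) (Rep.res (piQ V q.1) N) :=
    inferInstanceAs (Module.Finite (ZMod p) N)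
  have hθ := Fermat.Agent.S55.LocDual26.Plugs.local_duality_of_plugs p S hpS q hP2 hP5
    (lam q) hlam (Rep.res (piQ V q.1) N) ⟨V, hV, fun s hs n => by
      show N.ρ (piQ V q.1 s) n = n
      rw [piQ_eq_one V q.1 hs, map_one]
      rfl⟩
  have hcomp : (psi S V hμ lam q N : (N ⟶ muQ V hμ q.1) → _) =
      (Dualizing59.theta (pullLevels (primeLocalToGlobal q.1))
        (Rep.res (primeLocalToGlobal q.1) (mu p)) (lam q) (Rep.res (piQ V q.1) N)) ∘
        (toEq S V hμ q N) := by
    funext φ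
    exact psi_eq_theta S V hμ lam q N φ
  rw [hcomp]
  exact Function.Bijective.comp hθ (toEq_bijective S V hμ q N)

end Fermat.Agent.S55.EW55.LocDualInst
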