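/-
S55 / route R3, variant W55 (helper55): the COUNT at a finite level.

For `N` a finite-dimensional representation of `Γ = G_ℚ ⧸ V`:
* `range_Pmap` : `range (Pmap hE) = Φ (range (sumDual locM))` (key formula + local duality);
* `finrank_ker_eq_add` : `dim ⨅ ker (loc v) = dim sha1Fin + dim (Hom_Γ(N, I) / HomB)` (abstract);
* `sha₂KerEquiv` : for `p` odd, `sha₂ S (infl N) ≃ ⨅_{q ∈ S} ker (locM q N)`.
-/
import Fermat.Agent.S55.EW55.Global
import Fermat.Agent.S55.EW55.LocDualInst
import Fermat.Agent.S55.FormalTop25.DualSha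
import Fermat.Agent.S55.ProfinLocal31.Sha

set_option autoImplicit false
set_option linter.unusedSectionVars false
set_option linter.unusedVariables false
set_option linter.style.haveILetI false

open CategoryTheory Module groupCohomology ExtCitation
open Fermat.Agent.S55.Profin15
open Fermat.Agent.Lib.FrobeniusExists (Qb GQ)
open Fermat.Agent.S55.Contract34
open Fermat.Agent.S55.Profin15.Plug
open Fermat.Agent.S55.ProfinLocal31

noncomputable section

namespace Fermat.Agent.S55.EW55.Count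

open Fermat.Agent.S55.EW55.FormalPT Fermat.Agent.S55.EW55.Global
open Fermat.Agent.S55.FormalTop25.DualSha

/-! ### Abstract: the count with defect -/

section Abstract

variable {k : Type} [Field k] {Γ : Type} [Group Γ] {ι : Type} [Fintype ι] [Nonempty ι]
  {D : ι → Subgroup Γ} {M Z I : Rep.{0} k Γ} {α : ∀ v, CoindZ D Z v ⟶ I}
  {X : Type} [AddCommGroup X] [Module k X]
  {Y : ι → Type} [∀ v, AddCommGroup (Y v)] [∀ v, Module k (Y v)]

omit [Fintype ι] [Nonempty ι] in
lemma finite_res_leftRegular [Finite Γ] (H : Subgroup Γ) :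
    Module.Finite k (Rep.res H.subtype (Rep.leftRegular k Γ)) :=
  inferInstanceAs (Module.Finite k (MonoidAlgebra k Γ))

lemma range_Pmap_le_HomB (hE : ExactE α) : LinearMap.range (Pmap (M := M) hE) ≤ HomB M α := by
  rintro _ ⟨n, rfl⟩
  exact Psi_mem_HomB hE _

/-- **The count with defect**: `dim ⨅ ker (loc v) = dim sha1Fin + dim (Hom(M, I) / HomB)`. -/
theorem finrank_ker_eq_add (hE : ExactE α) (loc : ∀ v, X →ₗ[k] Y v)
    (Φ : Module.Dual k X ≃ₗ[k] (M ⟶ I))
    (hP : LinearMap.range (Pmap (M := M) hE) =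
      (LinearMap.range (sumDual loc)).map (Φ : Module.Dual k X →ₗ[k] (M ⟶ I)))
    [Module.Finite k (M ⟶ I)] :
    Module.Finite k ↥(⨅ v, LinearMap.ker (loc v)) ∧
      finrank k ↥(⨅ v, LinearMap.ker (loc v)) =
        finrank k ↥(sha1Fin D M Z) + finrank k ((M ⟶ I) ⧸ HomB M α) := by
  set K : Submodule k X := ⨅ v, LinearMap.ker (loc v) with hK
  set R : Submodule k (M ⟶ I) := LinearMap.range (Pmap (M := M) hE) with hR
  set B : Submodule k (M ⟶ I) := HomB M α with hB
  have hRB : R ≤ B := range_Pmap_le_HomB hE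
  -- `Dual K ≃ Dual X ⧸ ann K ≃ (M ⟶ I) ⧸ R`
  have e1 : (Module.Dual k X ⧸ K.dualAnnihilator) ≃ₗ[k] Module.Dual k ↥K :=
    Subspace.quotAnnihilatorEquiv K
  have hmap : K.dualAnnihilator.map (Φ : Module.Dual k X →ₗ[k] (M ⟶ I)) = R := by
    rw [hP, range_sumDual]
  have e2 : (Module.Dual k X ⧸ K.dualAnnihilator) ≃ₗ[k] ((M ⟶ I) ⧸ R) :=
    Submodule.Quotient.equiv _ _ Φ hmap
  have e : Module.Dual k ↥K ≃ₗ[k] ((M ⟶ I) ⧸ R) := e1.symm ≪≫ₗ e2
  haveI : Module.Finite k (Module.Dual k ↥K) := Module.Finite.equiv e.symm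
  have hfin : Module.Finite k ↥K := (Module.finite_dual_iff k).1 inferInstance
  refine ⟨hfin, ?_⟩
  haveI := hfin
  have h1 : finrank k ↥K = finrank k ((M ⟶ I) ⧸ R) := by
    rw [← Subspace.dual_finrank_eq, e.finrank_eq]
  -- the chain `R ≤ B ≤ ⊤`
  have q1 := Submodule.finrank_quotient_add_finrank R
  have q2 := Submodule.finrank_quotient_add_finrank B
  have q3 := Submodule.finrank_quotient_add_finrank (R.comap B.subtype)
  have q4 : finrank k ↥(R.comap B.subtype) = finrank k ↥R :=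
    (Submodule.comapSubtypeEquivOfLe hRB).finrank_eq
  have q5 : finrank k (↥B ⧸ R.comap B.subtype) = finrank k ↥(sha1Fin D M Z) :=
    (quotEquiv (M := M) hE).finrank_eq
  rw [h1]
  omega

end Abstract

/-! ### The instance -/

section Instance

open Fermat.Agent.S55.EW55.Inst Fermat.Agent.S55.EW55.LevelData

variable {p : ℕ} [Fact p.Prime] (S : Finset Nat.Primes) (V : Subgroup GQ) [V.Normal]
variable (hμ : V ≤ (mu p).ρ.ker)
variable (lam : ∀ q : ↥S, (pullLevels (primeLocalToGlobal q.1)).H2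
      (Rep.res (primeLocalToGlobal q.1) (mu p)) →ₗ[ZMod p] ZMod p)

/-- `H²(G_S, infl N)` -/
abbrev XN (N : Rep.{0} (ZMod p) (GQ ⧸ V)) : Type :=
  (globalLevels S).H2 (Rep.res (QuotientGroup.mk' V) N)

/-- `H²(G_q, infl res N)` -/
abbrev YN (N : Rep.{0} (ZMod p) (GQ ⧸ V)) (q : ↥S) : Type :=
  (pullLevels (primeLocalToGlobal q.1)).H2 (Rep.res (piQ V q.1) (Rep.res (D V q.1).subtype N))

/-- the localisation maps of `infl N` -/
def locN (N : Rep.{0} (ZMod p) (GQ ⧸ V)) (q : ↥S) : XN (p := p) S V N →ₗ[ZMod p] YN S V N q :=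
  locM S V q N

/-- Eilenberg–Watts for `TS`, typed on `Module.Dual` -/
def PhiD [Finite (GQ ⧸ V)] (hT : (TS (p := p) S V).LeftExact) (N : Rep.{0} (ZMod p) (GQ ⧸ V))
    [Module.Finite (ZMod p) N] :
    Module.Dual (ZMod p) (XN (p := p) S V N) ≃ₗ[ZMod p] (N ⟶ (TS (p := p) S V).I) :=
  (TS (p := p) S V).PhiEquiv hT N

/-- the local pairing map, typed on `Module.Dual` -/
def psiD (N : Rep.{0} (ZMod p) (GQ ⧸ V)) (q : ↥S)
    (φ : Rep.res (D V q.1).subtype N ⟶ muQ V hμ q.1) : Module.Dual (ZMod p) (YN (p := p) S V N q) :=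
  psi S V hμ lam q (Rep.res (D V q.1).subtype N) φ

lemma PhiD_sumDual [Finite (GQ ⧸ V)] (hT : (TS (p := p) S V).LeftExact)
    (N : Rep.{0} (ZMod p) (GQ ⧸ V)) [Module.Finite (ZMod p) N]
    (φ : ∀ q : ↥S, Rep.res (D V q.1).subtype N ⟶ muQ V hμ q.1) :
    PhiD S V hT N (sumDual (Y := fun q : ↥S => YN (p := p) S V N q) (locN S V N) (fun q => psiD S V hμ lam N q (φ q))) =
      ∑ q : ↥S, frob (D := DS S V) (Z := muV V hμ) q (φ q) ≫ alphaQ S V hμ lam q := by
  have h1 : sumDual (Y := fun q : ↥S => YN (p := p) S V N q) (locN S V N) (fun q => psiD S V hμ lam N q (φ q)) =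
      ∑ q : ↥S, aqD S V hμ lam q N (φ q) := rfl
  rw [h1, map_sum]
  refine Finset.sum_congr rfl fun q _ => ?_
  exact key_formula S V hμ lam q N (φ q)

/-- **`range Pmap` is the image under Eilenberg–Watts of the range of the dual of the total
localisation map** (key formula + surjectivity of the local pairing maps). -/
theorem range_Pmap [Finite (GQ ⧸ V)] (hT : (TS (p := p) S V).LeftExact)
    (hE : ExactE (alphaQ S V hμ lam))
    (N : Rep.{0} (ZMod p) (GQ ⧸ V)) [Module.Finite (ZMod p) N]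
    (hsurj : ∀ q : ↥S, Function.Surjective (psi S V hμ lam q (Rep.res (D V q.1).subtype N))) :
    LinearMap.range (Pmap (M := N) hE) =
      (LinearMap.range (sumDual (Y := fun q : ↥S => YN (p := p) S V N q) (locN S V N))).map
        (PhiD S V hT N : Module.Dual (ZMod p) (XN (p := p) S V N) →ₗ[ZMod p] _) := by
  apply le_antisymm
  · rintro _ ⟨n, rfl⟩
    refine ⟨sumDual (Y := fun q : ↥S => YN (p := p) S V N q) (locN S V N) (fun q => psiD S V hμ lam N q (homOf n q)), ⟨_, rfl⟩, ?_⟩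
    rw [Pmap_eq_sum]
    exact PhiD_sumDual S V hμ lam hT N (fun q => homOf n q)
  · rintro _ ⟨_, ⟨y, rfl⟩, rfl⟩
    choose φ hφ using fun q : ↥S => hsurj q (y q)
    have hy : y = fun q => psiD S V hμ lam N q (φ q) := by
      funext q
      exact (hφ q).symm
    have h0 := Pmap_eq_sum (M := N) hE (ofHoms (D := DS S V) (Z := muV V hμ) φ)
    have h1 := PhiD_sumDual S V hμ lam hT N φ
    have h2 : (∑ q : ↥S, frob (D := DS S V) (Z := muV V hμ) q
        (homOf (ofHoms (D := DS S V) (Z := muV V hμ) φ) q) ≫ alphaQ S V hμ lam q) =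
        ∑ q : ↥S, frob (D := DS S V) (Z := muV V hμ) q (φ q) ≫ alphaQ S V hμ lam q := by
      refine Finset.sum_congr rfl fun q _ => ?_
      rw [homOf_ofHoms]
    subst hy
    exact ⟨ofHoms (D := DS S V) (Z := muV V hμ) φ, h0.trans (h2.trans h1.symm)⟩

/-! ### `sha₂` as the kernel of the localisation maps at the finite places (`p` odd) -/

/-- for `p` odd, `sha₂ S A` is the common kernel of the localisation maps at the finite places of
`S`, in level cohomology -/
def sha₂EquivKer (hp2 : p ≠ 2) (A : Rep.{0} (ZMod p) GQ) :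
    ↥(sha₂ S A) ≃ₗ[ZMod p] ↥(⨅ q : ↥S, LinearMap.ker (locq p S q.1 A)) :=
  ((continuousH2SEquiv S A).submoduleMap (sha₂ S A)).trans (LinearEquiv.ofEq _ _ (by
    ext y
    simp only [Submodule.mem_map, Submodule.mem_iInf, LinearMap.mem_ker]
    constructor
    · rintro ⟨x, hx, rfl⟩ q
      have h := continuousH2Equiv_locRes₂S' p S q.1 A x
      show locq p S q.1 A (continuousH2SEquiv S A x) = 0
      rw [← h, (Sha.mem_sha₂_iff S hp2 A x).1 hx q, map_zero]
    · intro hy
      refine ⟨(continuousH2SEquiv S A).symm y, (Sha.mem_sha₂_iff S hp2 A _).2 fun q => ?_,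
        by simp⟩
      apply (continuousH2Equiv (primeLocalToGlobal q.1)
        (Rep.res (primeLocalToGlobal q.1) A)).injective
      rw [continuousH2Equiv_locRes₂S', LinearEquiv.apply_symm_apply, hy q, map_zero]))

/-- the inverse identity `infl_q (res_{D_q} M) → res_{G_q} (infl M)` -/
def idRes' (q : Nat.Primes) (M : Rep.{0} (ZMod p) (GQ ⧸ V)) :
    Rep.res (piQ V q) (Rep.res (D V q).subtype M) →ₗ[ZMod p]
      Rep.res (primeLocalToGlobal q) (Rep.res (QuotientGroup.mk' V) M) :=
  LinearMap.id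

lemma idRes'_equivariant (q : Nat.Primes) (M : Rep.{0} (ZMod p) (GQ ⧸ V)) :
    LevelStr.IsEquivariant (idRes' V q M) :=
  fun _ _ => rfl

lemma idRes'_idRes (q : Nat.Primes) (M : Rep.{0} (ZMod p) (GQ ⧸ V))
    (y : (pullLevels (primeLocalToGlobal q)).H2
      (Rep.res (primeLocalToGlobal q) (Rep.res (QuotientGroup.mk' V) M))) :
    (pullLevels (primeLocalToGlobal q)).H2map (idRes' V q M) (idRes'_equivariant V q M)
      ((pullLevels (primeLocalToGlobal q)).H2map (idRes V q M) (idRes_equivariant V q M) y) =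
      y := by
  obtain ⟨c, rfl⟩ := Submodule.mkQ_surjective _ y
  rfl

lemma ker_locN (N : Rep.{0} (ZMod p) (GQ ⧸ V)) (q : ↥S) :
    LinearMap.ker (locN (p := p) S V N q) =
      LinearMap.ker (locq p S q.1 (Rep.res (QuotientGroup.mk' V) N)) := by
  ext x
  rw [LinearMap.mem_ker, LinearMap.mem_ker]
  constructor
  · intro h
    have h' : (pullLevels (primeLocalToGlobal q.1)).H2map (idRes V q.1 N)
        (idRes_equivariant V q.1 N) (locq p S q.1 (Rep.res (QuotientGroup.mk' V) N) x) = 0 := h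
    have h2 := congrArg ((pullLevels (primeLocalToGlobal q.1)).H2map (idRes' V q.1 N)
      (idRes'_equivariant V q.1 N)) h'
    rw [map_zero, idRes'_idRes] at h2
    exact h2
  · intro h
    show (pullLevels (primeLocalToGlobal q.1)).H2map (idRes V q.1 N) (idRes_equivariant V q.1 N)
      (locq p S q.1 (Rep.res (QuotientGroup.mk' V) N) x) = 0
    rw [h, map_zero]

/-- `sha₂` of an inflated module is the common kernel of the maps `locN` -/
def sha₂EquivKerN (hp2 : p ≠ 2) (N : Rep.{0} (ZMod p) (GQ ⧸ V)) :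
    ↥(sha₂ S (Rep.res (QuotientGroup.mk' V) N)) ≃ₗ[ZMod p]
      ↥(⨅ q : ↥S, LinearMap.ker (locN (p := p) S V N q)) :=
  (sha₂EquivKer S hp2 (Rep.res (QuotientGroup.mk' V) N)).trans
    (LinearEquiv.ofEq _ _ (by
      congr 1
      funext q
      exact (ker_locN S V N q).symm))

/-! ### Finiteness of `Hom_Γ(N, I)` -/

omit [Fact p.Prime] in
lemma finite_hom_of_finite {k : Type} [Field k] {Γ : Type} [Group Γ] (N I : Rep.{0} k Γ)
    [Module.Finite k N] [Module.Finite k I] : Module.Finite k (N ⟶ I) := by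
  let L : (N ⟶ I) →ₗ[k] (N →ₗ[k] I) :=
    { toFun := fun φ => φ.hom.toLinearMap
      map_add' := fun _ _ => rfl
      map_smul' := fun _ _ => rfl }
  refine Module.Finite.of_injective L ?_
  intro φ φ' h
  ext n
  exact LinearMap.congr_fun h n

instance finite_I [hH : Module.Finite (ZMod p) (HR (p := p) S V)] :
    Module.Finite (ZMod p) ((TS (p := p) S V).I) :=
  inferInstanceAs (Module.Finite (ZMod p) (Module.Dual (ZMod p) (HR (p := p) S V)))

/-! ### Assembly of the per-level data -/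

/-- the count for a `Γ`-module -/
theorem count_N [Nonempty ↥S] [Finite (GQ ⧸ V)]
    (hT : (TS (p := p) S V).LeftExact) (hE : ExactE (alphaQ S V hμ lam))
    (hbij : ∀ (q : ↥S) (N : Rep.{0} (ZMod p) ↥(D V q.1)) [Module.Finite (ZMod p) N],
      Function.Bijective (psi S V hμ lam q N))
    (N : Rep.{0} (ZMod p) (GQ ⧸ V)) [Module.Finite (ZMod p) N]
    [Module.Finite (ZMod p) (N ⟶ (TS (p := p) S V).I)] :
    Module.Finite (ZMod p) ↥(⨅ q : ↥S, LinearMap.ker (locN (p := p) S V N q)) ∧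
    finrank (ZMod p) ↥(⨅ q : ↥S, LinearMap.ker (locN (p := p) S V N q)) =
      finrank (ZMod p) ↥(sha1Fin (DS S V) N (muV V hμ)) +
      finrank (ZMod p) ((N ⟶ (TS (p := p) S V).I) ⧸ HomB N (alphaQ S V hμ lam)) := by
  have hsurj : ∀ q : ↥S, Function.Surjective
      (psi S V hμ lam q (Rep.res (D V q.1).subtype N)) := fun q => by
    haveI : Module.Finite (ZMod p) (Rep.res (D V q.1).subtype N) :=
      inferInstanceAs (Module.Finite (ZMod p) N)
    exact (hbij q _).2
  have hP := range_Pmap S V hμ lam hT hE N hsurj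
  have h := finrank_ker_eq_add (k := ZMod p) (Γ := GQ ⧸ V) (ι := ↥S) (D := DS S V) (M := N)
    (Z := muV V hμ) (I := (TS (p := p) S V).I) (α := alphaQ S V hμ lam)
    (X := XN (p := p) S V N)
    (Y := fun q : ↥S => YN (p := p) S V N q) hE
    (locN S V N) (PhiD S V hT N)
  have h2 := h hP
  refine ⟨?_, ?_⟩
  · exact h2.1
  · have h3 := h2.2
    calc finrank (ZMod p) ↥(⨅ q : ↥S, LinearMap.ker (locN (p := p) S V N q)) = _ := h3
      _ = finrank (ZMod p) ↥(sha1Fin (DS S V) N (muV V hμ)) +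
      finrank (ZMod p) ((N ⟶ (TS (p := p) S V).I) ⧸ HomB N (alphaQ S V hμ lam)) := by
        congr 1

/-- the count field of `LevelData.Data` -/
theorem count_field (hp2 : p ≠ 2) [Nonempty ↥S] [Finite (GQ ⧸ V)]
    (hT : (TS (p := p) S V).LeftExact) (hE : ExactE (alphaQ S V hμ lam))
    (hbij : ∀ (q : ↥S) (N : Rep.{0} (ZMod p) ↥(D V q.1)) [Module.Finite (ZMod p) N],
      Function.Bijective (psi S V hμ lam q N))
    (hI : Module.Finite (ZMod p) ((TS (p := p) S V).I))
    (M : Rep.{0} (ZMod p) GQ) [FiniteDimensional (ZMod p) M] (hM : V ≤ M.ρ.ker) :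
    FiniteDimensional (ZMod p) (sha₂ S M) ∧
    finrank (ZMod p) (sha₂ S M) =
      finrank (ZMod p) ↥(sha1Fin (DS S V) (LevelModel.levelRep M V hM) (muV V hμ)) +
      finrank (ZMod p) ((LevelModel.levelRep M V hM ⟶ (TS (p := p) S V).I) ⧸
        HomB (LevelModel.levelRep M V hM) (alphaQ S V hμ lam)) := by
  haveI : Module.Finite (ZMod p) (LevelModel.levelRep M V hM) :=
    inferInstanceAs (Module.Finite (ZMod p) M)
  haveI : Module.Finite (ZMod p) (LevelModel.levelRep M V hM ⟶ (TS (p := p) S V).I) :=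
    finite_hom_of_finite _ _
  obtain ⟨hfin, hcount⟩ := count_N S V hμ lam hT hE hbij (LevelModel.levelRep M V hM)
  have e : ↥(sha₂ S M) ≃ₗ[ZMod p]
      ↥(⨅ q : ↥S, LinearMap.ker (locN (p := p) S V (LevelModel.levelRep M V hM) q)) :=
    (ShaIso.sha₂Equiv S (LevelModel.levelIso M V hM)).trans
      (sha₂EquivKerN S V hp2 (LevelModel.levelRep M V hM))
  haveI := hfin
  exact ⟨e.symm.finiteDimensional, by rw [e.finrank_eq]; exact hcount⟩

/-- hypothesis (E) from the plugs at the level `V` -/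
theorem exactE_of_bij [Nonempty ↥S] [Finite (GQ ⧸ V)]
    (hrec : ∀ x : (globalLevels S).H2 (mu p), ∑ q : ↥S, lam q (locq p S q.1 (mu p) x) = 0)
    (hbij : ∀ (q : ↥S) (N : Rep.{0} (ZMod p) ↥(D V q.1)) [Module.Finite (ZMod p) N],
      Function.Bijective (psi S V hμ lam q N))
    [∀ q : ↥S, Module.Finite (ZMod p) (PR (p := p) S V q)]
    (hdim : ∑ q : ↥S, finrank (ZMod p) (PR (p := p) S V q) ≤
      finrank (ZMod p) (LinearMap.range (LinearMap.pi fun q : ↥S => LR (p := p) S V q)) + 1) :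
    ExactE (alphaQ S V hμ lam) := by
  refine exactE_alphaQ S V hμ lam hrec (fun q => ?_) hdim
  haveI : Module.Finite (ZMod p)
      (Rep.res (D V q.1).subtype (Rep.leftRegular (ZMod p) (GQ ⧸ V))) :=
    finite_res_leftRegular (D V q.1)
  exact (hbij q _).1

/-- **The per-level data** from: left exactness of `TS` (P1), reciprocity (P3P4), local duality
(P2 + P5), the finiteness and dimension inputs at the level `V` (P5, P6), and the persistence
property. -/
theorem nonempty_data (hp2 : p ≠ 2) [Nonempty ↥S] [Finite (GQ ⧸ V)]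
    (hT : (TS (p := p) S V).LeftExact)
    (hrec : ∀ x : (globalLevels S).H2 (mu p), ∑ q : ↥S, lam q (locq p S q.1 (mu p) x) = 0)
    (hbij : ∀ (q : ↥S) (N : Rep.{0} (ZMod p) ↥(D V q.1)) [Module.Finite (ZMod p) N],
      Function.Bijective (psi S V hμ lam q N))
    [∀ q : ↥S, Module.Finite (ZMod p) (PR (p := p) S V q)]
    [Module.Finite (ZMod p) (HR (p := p) S V)]
    (hdim : ∑ q : ↥S, finrank (ZMod p) (PR (p := p) S V q) ≤
      finrank (ZMod p) (LinearMap.range (LinearMap.pi fun q : ↥S => LR (p := p) S V q)) + 1)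
    (hpersist : ∀ (U₀ : Subgroup GQ) (hVU : V ≤ U₀),
      HomB (LevelModel.levelRep (perm p U₀) V (le_ker_perm V hVU)) (alphaQ S V hμ lam) = ⊤ →
      ∀ (M : Rep.{0} (ZMod p) GQ) [FiniteDimensional (ZMod p) M] (hM : U₀ ≤ M.ρ.ker),
        HomB (LevelModel.levelRep M V (hVU.trans hM)) (alphaQ S V hμ lam) = ⊤) :
    Nonempty (Data S V hμ) := by
  have hE : ExactE (alphaQ S V hμ lam) := exactE_of_bij S V hμ lam hrec hbij hdim
  have hI : Module.Finite (ZMod p) ((TS (p := p) S V).I) := finite_I S V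
  exact ⟨{ I := (TS (p := p) S V).I
           α := alphaQ S V hμ lam
           hE := hE
           finite_hom := fun N _ => finite_hom_of_finite N _
           count := fun M _ hM => count_field S V hμ lam hp2 hT hE hbij hI M hM
           persist := hpersist }⟩

end Instance

end Fermat.Agent.S55.EW55.Count
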