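/-
S55 / route R3, variant W55 (helper55): THE FINAL WIRING of the finite-level analysis.

`statement : PlugsCount p S → LevelData.Statement p S` (for `p ≠ 2`, `p ∈ S`): the per-level data
of `EW55.LevelData` exist at every level `V` trivialising `μ_p`, from the six plugs:
* (P1)  gives left exactness of `N ↦ H²(G_S, infl N)^*` (`Inst.TS_leftExact`);
* (P34) gives the functionals `lam q ≠ 0` with the reciprocity law;
* (P2) + (P5) give local duality at the level `V` (`LocDualInst.psi_bijective`);
* (P5), (P6) at `U := V` give finiteness and the dimension inequality (`FormalTop65.Perm`);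
* persistence of (F) is formal (`FormalTop38.Persist.persist`).
Together with `FormalTop25.W55Top` this closes route W55:
`topStatementCount : Contract34.TopStatementCount`.
-/
import Fermat.Agent.S55.EW55.Count
import Fermat.Agent.S55.EW55.LocDualInst
import Fermat.Agent.S55.FormalTop65.Perm
import Fermat.Agent.S55.FormalTop38.Persist
import Fermat.Agent.S55.FormalTop25.W55Top

set_option autoImplicit false
set_option linter.style.haveILetI false
set_option linter.unusedSectionVars false

open CategoryTheory Module groupCohomology ExtCitation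
open Fermat.Agent.S55.Profin15
open Fermat.Agent.Lib.FrobeniusExists (Qb GQ)
open Fermat.Agent.S55.Contract34
open Fermat.Agent.S55.Profin15.Plug
open Fermat.Agent.S55.ProfinLocal31

noncomputable section

namespace Fermat.Agent.S55.EW55.Statement

open Fermat.Agent.S55.EW55.Inst Fermat.Agent.S55.EW55.LevelData
open Fermat.Agent.S55.EW55.FormalPT Fermat.Agent.S55.EW55.Global

variable {p : ℕ} [Fact p.Prime] {S : Finset Nat.Primes}

/-- **The per-level statement from the plugs.** -/
theorem statement (hp2 : p ≠ 2) (hpS : pPrime p ∈ S) (hpl : PlugsCount p S) :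
    LevelData.Statement p S := by
  have hL : PlugsCountL p S := (plugsCount_iff p S).1 hpl
  obtain ⟨h1, _, ⟨lam, hne, hrec⟩, h5, h6, _⟩ := hL
  have hP2 : ∀ q ∈ S, LocalRightExact p q := hpl.2.1
  have hP5 : LocalDim p S := hpl.2.2.2.1
  intro V hV hμ
  haveI : V.Normal := (globalLevels S).normal V hV
  haveI : V.FiniteIndex := (globalLevels S).finiteIndex V hV
  haveI : Finite (GQ ⧸ V) := Subgroup.finite_quotient_of_finiteIndex
  haveI : Nonempty ↥S := ⟨⟨pPrime p, hpS⟩⟩
  have hmu : ∀ s ∈ V, (mu p).ρ s = 1 := FormalTop65.mu_ρ_eq_one_of_le_ker V hμ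
  haveI hPR : ∀ q : ↥S, Module.Finite (ZMod p) (PR (p := p) S V q) :=
    fun q => FormalTop65.finite_H2Q_res_regV S V h5 hV hmu q
  haveI hHR : Module.Finite (ZMod p) (HR (p := p) S V) :=
    FormalTop65.finite_H2_res_regV S V h6 hV hmu
  have hdim : ∑ q : ↥S, finrank (ZMod p) (PR (p := p) S V q) ≤
      finrank (ZMod p) (LinearMap.range (LinearMap.pi fun q : ↥S => LR (p := p) S V q)) + 1 :=
    FormalTop65.sum_finrank_le_of_globalCokerDimL S V h6 hV hmu
  exact Count.nonempty_data S V hμ lam hp2 (TS_leftExact S V hV h1) hrec
    (fun q N _ => LocDualInst.psi_bijective S V hμ lam hV hpS q (hP2 q.1 q.2) hP5 (hne q) N)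
    hdim
    (fun U₀ hVU h M _ hM => FormalTop38.Persist.persist S V hμ (alphaQ S V hμ lam) U₀ hVU h M hM)

/-- **Route W55 closed**: the top-layer statement (count form), unconditionally. -/
theorem topStatementCount : TopStatementCount :=
  FormalTop25.W55Top.topStatementCount_of_statement
    fun _ _ hp2 _ hpS hpl => statement hp2 hpS hpl

end Fermat.Agent.S55.EW55.Statement
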