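import Fermat.Agent.S55.EW55.Watts

set_option autoImplicit false
set_option linter.unusedSectionVars false
set_option linter.style.haveILetI false

open CategoryTheory

namespace Fermat.Agent.S55.EW55.WattsIso45

open Fermat.Agent.S55.EW55

variable {k : Type} [Field k] {Γ : Type} [Group Γ]

/-- `Hom_Γ(-, Z)` as a `DualFun`. -/
noncomputable def homFun (Z : Rep.{0} k Γ) : DualFun k Γ where
  obj N := (N ⟶ Z)
  map f :=
    { toFun := fun φ => f ≫ φ
      map_add' := fun φ ψ => Rep.comp_add f φ ψ
      map_smul' := fun c φ => Rep.comp_smul f c φ }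
  map_id A := by
    apply LinearMap.ext; intro φ
    exact Category.id_comp φ
  map_comp f g := by
    apply LinearMap.ext; intro φ
    exact Category.assoc f g φ
  map_add f g := by
    apply LinearMap.ext; intro φ
    exact Rep.add_comp f g φ
  map_smul c f := by
    apply LinearMap.ext; intro φ
    exact Rep.smul_comp c f φ

@[simp] lemma homFun_map_apply (Z : Rep.{0} k Γ) {A B : Rep.{0} k Γ} (f : A ⟶ B) (φ : B ⟶ Z) :
    (homFun Z).map f φ = f ≫ φ := rfl

/-- A criterion for exactness in `Rep`. -/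
lemma exact_of_elementwise (S : ShortComplex (Rep.{0} k Γ))
    (hex : ∀ x : S.X₂, S.g.hom x = 0 → ∃ y : S.X₁, S.f.hom y = x) : S.Exact :=
  (forget₂ (Rep.{0} k Γ) (ModuleCat.{0} k)).reflects_exact_of_faithful _ <|
    (ShortComplex.moduleCat_exact_iff _).2 fun x hx => hex x hx

lemma homFun_leftExact (Z : Rep.{0} k Γ) : (homFun Z).LeftExact where
  inj := by
    intro A B _ _ f hf φ ψ h
    haveI : Epi f := (Rep.epi_iff_surjective f).2 hf
    exact (cancel_epi f).1 h
  exact := by
    intro A B C _ _ _ f g hf hg hex t ht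
    have hzero : f ≫ g = 0 := by
      ext a
      exact (hex (f.hom a)).2 ⟨a, rfl⟩
    let S : ShortComplex (Rep.{0} k Γ) := ShortComplex.mk f g hzero
    have hS : S.Exact := exact_of_elementwise S (fun x hx => (hex x).1 hx)
    haveI : Epi S.g := (Rep.epi_iff_surjective g).2 hg
    exact ⟨hS.desc t ht, hS.g_desc t ht⟩

section Iso

variable [Finite Γ] {T T' : DualFun k Γ}

/-- A natural transformation between left exact functors which is bijective at `k[Γ]` is
bijective on all finite-dimensional representations. -/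
theorem bijective_of_leftRegular (hT : T.LeftExact) (hT' : T'.LeftExact)
    (η : ∀ A : Rep.{0} k Γ, T'.obj A →ₗ[k] T.obj A)
    (hη : ∀ {A B : Rep.{0} k Γ} (f : A ⟶ B) (t : T'.obj B), η A (T'.map f t) = T.map f (η B t))
    (hR : Function.Bijective (η (Rep.leftRegular k Γ)))
    (N : Rep.{0} k Γ) [Module.Finite k N] : Function.Bijective (η N) := by
  have hiso : IsIso (T.natI η hη) := by
    rw [ConcreteCategory.isIso_iff_bijective]
    exact hR
  have hΦ := T.Phi_bijective hT N
  have hΦ' := T'.Phi_bijective hT' N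
  constructor
  · intro t t' h
    apply hΦ'.1
    have h1 := T.Phi_nat η hη N t
    have h2 := T.Phi_nat η hη N t'
    rw [h] at h1
    exact (cancel_mono (T.natI η hη)).1 (h1.symm.trans h2)
  · intro y
    obtain ⟨t, ht⟩ := hΦ'.2 (T.Phi N y ≫ inv (T.natI η hη))
    refine ⟨t, hΦ.1 ?_⟩
    rw [T.Phi_nat η hη N t, ht, Category.assoc, IsIso.inv_hom_id, Category.comp_id]

end Iso

/-- Surjectivity passes to retracts. -/
theorem surjective_of_retract {T T' : DualFun k Γ}
    (η : ∀ A : Rep.{0} k Γ, T'.obj A →ₗ[k] T.obj A)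
    (hη : ∀ {A B : Rep.{0} k Γ} (f : A ⟶ B) (t : T'.obj B), η A (T'.map f t) = T.map f (η B t))
    {A B : Rep.{0} k Γ} (i : A ⟶ B) (r : B ⟶ A) (h : i ≫ r = 𝟙 A)
    (hB : Function.Surjective (η B)) : Function.Surjective (η A) := by
  intro y
  obtain ⟨x, hx⟩ := hB (T.map r y)
  refine ⟨T'.map i x, ?_⟩
  rw [hη, hx, ← T.map_comp_apply, h, T.map_id_apply]

/-- Injectivity passes to retracts. -/
theorem injective_of_retract {T T' : DualFun k Γ}
    (η : ∀ A : Rep.{0} k Γ, T'.obj A →ₗ[k] T.obj A)
    (hη : ∀ {A B : Rep.{0} k Γ} (f : A ⟶ B) (t : T'.obj B), η A (T'.map f t) = T.map f (η B t))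
    {A B : Rep.{0} k Γ} (i : A ⟶ B) (r : B ⟶ A) (h : i ≫ r = 𝟙 A)
    (hB : Function.Injective (η B)) : Function.Injective (η A) := by
  intro x x' hxx
  have h1 : η B (T'.map r x) = η B (T'.map r x') := by rw [hη, hη, hxx]
  have h2 := hB h1
  have h3 := congrArg (T'.map i) h2
  rwa [← T'.map_comp_apply, ← T'.map_comp_apply, h, T'.map_id_apply, T'.map_id_apply] at h3

end Fermat.Agent.S55.EW55.WattsIso45
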